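import Mathlib
import Fermat.Prelude.Def_GaloisRep_StrictOrdinary
import Fermat.Prelude.Def_GaloisRep_Flat

/-!
# S56, node (BC), part 1: the local conditions of S56 are stable under base change

For a local homomorphism `φ : A → B` of local rings and `ρ : GaloisRepAdic A`:
`DetIsCyclotomic`, `IsUnramifiedAt`, `IsUnipotentOnInertiaAt`, `IsOrdinaryAt`,
`IsStrictOrdinaryAt` pass from `ρ` to `ρ.baseChangeAlong φ hφ` (prefix `s56bc_`).
-/

set_option autoImplicit false
set_option linter.style.haveILetI false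
set_option linter.unusedSectionVars false

open IsLocalRing TensorProduct

namespace Fermat.Agent.S56

section BC

variable {A B : Type} [CommRing A] [IsLocalRing A] [CommRing B] [IsLocalRing B]

theorem s56bc_natCast_mem (φ : A →+* B) (hφ : IsLocalHom φ) (p : ℕ) (h : (p : A) ∈ maximalIdeal A) : (p : B) ∈ maximalIdeal B := by
  haveI := hφ
  have h2 : φ (p : A) ∈ maximalIdeal B := map_nonunit φ _ h
  rwa [map_natCast] at h2

theorem s56bc_map_mem_span (φ : A →+* B) (p n : ℕ) (x : A) (h : x ∈ Ideal.span {((p ^ n : ℕ) : A)}) :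
    φ x ∈ Ideal.span {((p ^ n : ℕ) : B)} := by
  obtain ⟨c, hc⟩ := Ideal.mem_span_singleton'.mp h
  rw [← hc, map_mul, map_natCast]
  exact Ideal.mul_mem_left _ _ (Ideal.subset_span rfl)

variable (φ : A →+* B) (hφ : IsLocalHom φ) (ρ : GaloisRepAdic A)

theorem s56bc_det (p : ℕ) (h : ρ.DetIsCyclotomic p) :
    (ρ.baseChangeAlong φ hφ).DetIsCyclotomic p := by
  letI : Algebra A B := φ.toAlgebra
  refine ⟨s56bc_natCast_mem φ hφ p h.1, fun n σ a ha => ?_⟩
  have h1 := h.2 n σ a ha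
  show LinearMap.det ((ρ.ρ σ).baseChange B) - (a : B) ∈ Ideal.span {((p ^ n : ℕ) : B)}
  rw [LinearMap.det_baseChange]
  have h2 : algebraMap A B (LinearMap.det (ρ.ρ σ)) - (a : B) =
      φ (LinearMap.det (ρ.ρ σ) - (a : A)) := by
    rw [map_sub, map_natCast]; rfl
  rw [h2]
  exact s56bc_map_mem_span φ p n _ h1

theorem s56bc_unramified (q : ℕ) (h : ρ.IsUnramifiedAt q) :
    (ρ.baseChangeAlong φ hφ).IsUnramifiedAt q := by
  letI : Algebra A B := φ.toAlgebra
  intro P hP σ hσ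
  show (ρ.ρ σ).baseChange B = 1
  rw [h P hP σ hσ, LinearMap.baseChange_one]

theorem s56bc_unipotent (q : ℕ) (h : ρ.IsUnipotentOnInertiaAt q) :
    (ρ.baseChangeAlong φ hφ).IsUnipotentOnInertiaAt q := by
  letI : Algebra A B := φ.toAlgebra
  intro P hP σ hσ
  show LinearMap.charpoly ((ρ.ρ σ).baseChange B) = _
  rw [LinearMap.charpoly_baseChange, h P hP σ hσ]
  simp

/-- `c ⊗ l` lies in the line spanned by `1 ⊗ b₀` when `l` lies in the line spanned by `b₀`. -/
theorem s56bc_tmul_mem [Algebra A B] {V : Type} [AddCommGroup V] [Module A V] (b0 : V) (c : B)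
    (l : V) (hl : l ∈ Submodule.span A {b0}) :
    c ⊗ₜ[A] l ∈ Submodule.span B {(1 : B) ⊗ₜ[A] b0} := by
  obtain ⟨a, rfl⟩ := Submodule.mem_span_singleton.mp hl
  rw [Submodule.mem_span_singleton]
  refine ⟨a • c, ?_⟩
  rw [TensorProduct.smul_tmul', smul_eq_mul, mul_one, TensorProduct.smul_tmul]

/-- transport of the condition "`f - z` has image in the line". -/
theorem s56bc_sub_smul_mem [Algebra A B] {V : Type} [AddCommGroup V] [Module A V] (b0 : V)
    (f : V →ₗ[A] V) (z : A) (h : ∀ v : V, f v - z • v ∈ Submodule.span A {b0})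
    (w : B ⊗[A] V) :
    f.baseChange B w - algebraMap A B z • w ∈ Submodule.span B {(1 : B) ⊗ₜ[A] b0} := by
  induction w using TensorProduct.induction_on with
  | zero => rw [map_zero, smul_zero, sub_zero]; exact Submodule.zero_mem _
  | tmul c v =>
    have h1 : f.baseChange B (c ⊗ₜ[A] v) - algebraMap A B z • (c ⊗ₜ[A] v) =
        c ⊗ₜ[A] (f v - z • v) := by
      rw [LinearMap.baseChange_tmul, TensorProduct.tmul_sub, TensorProduct.tmul_smul,
        algebraMap_smul]
    rw [h1]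
    exact s56bc_tmul_mem b0 c _ (h v)
  | add x y hx hy =>
    have h1 : f.baseChange B (x + y) - algebraMap A B z • (x + y) =
        (f.baseChange B x - algebraMap A B z • x) + (f.baseChange B y - algebraMap A B z • y) := by
      rw [map_add, smul_add]; abel
    rw [h1]
    exact Submodule.add_mem _ hx hy

theorem s56bc_stable [Algebra A B] {V : Type} [AddCommGroup V] [Module A V] (b0 : V)
    (f : V →ₗ[A] V) (h : ∀ v ∈ Submodule.span A {b0}, f v ∈ Submodule.span A {b0})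
    (w : B ⊗[A] V) (hw : w ∈ Submodule.span B {(1 : B) ⊗ₜ[A] b0}) :
    f.baseChange B w ∈ Submodule.span B {(1 : B) ⊗ₜ[A] b0} := by
  obtain ⟨c, rfl⟩ := Submodule.mem_span_singleton.mp hw
  rw [map_smul, LinearMap.baseChange_tmul]
  refine Submodule.smul_mem _ _ ?_
  exact s56bc_tmul_mem b0 1 _ (h b0 (Submodule.mem_span_singleton_self b0))

theorem s56bc_eigen [Algebra A B] {V : Type} [AddCommGroup V] [Module A V] (b0 : V)
    (f : V →ₗ[A] V) (x : A) (h : ∀ w ∈ Submodule.span A {b0}, f w = x • w)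
    (w : B ⊗[A] V) (hw : w ∈ Submodule.span B {(1 : B) ⊗ₜ[A] b0}) :
    f.baseChange B w = algebraMap A B x • w := by
  obtain ⟨c, rfl⟩ := Submodule.mem_span_singleton.mp hw
  rw [map_smul, LinearMap.baseChange_tmul, h b0 (Submodule.mem_span_singleton_self b0),
    TensorProduct.tmul_smul, algebraMap_smul, smul_comm]

theorem s56bc_one_sub_mem [Algebra A B] {V : Type} [AddCommGroup V] [Module A V] (b0 : V)
    (f : V →ₗ[A] V) (h : ∀ v : V, f v - v ∈ Submodule.span A {b0})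
    (w : B ⊗[A] V) :
    f.baseChange B w - w ∈ Submodule.span B {(1 : B) ⊗ₜ[A] b0} := by
  have := s56bc_sub_smul_mem (B := B) b0 f 1 (fun v => by rw [one_smul]; exact h v) w
  rwa [map_one, one_smul] at this

theorem s56bc_span_eq [Algebra A B] {V : Type} [AddCommGroup V] [Module A V]
    (b : Module.Basis (Fin 2) A V) :
    Submodule.span B {(1 : B) ⊗ₜ[A] b 0} = Submodule.span B {(b.baseChange B) 0} := by
  rw [Module.Basis.baseChange_apply]

theorem s56bc_ordinary (p : ℕ) (h : ρ.IsOrdinaryAt p) :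
    (ρ.baseChangeAlong φ hφ).IsOrdinaryAt p := by
  letI : Algebra A B := φ.toAlgebra
  intro P hP
  obtain ⟨L, ⟨b, rfl⟩, hD, hI⟩ := h P hP
  refine ⟨Submodule.span B {(1 : B) ⊗ₜ[A] b 0}, ⟨b.baseChange B, ?_⟩, ?_, ?_⟩
  · exact s56bc_span_eq b
  · intro σ hσ v hv
    exact s56bc_stable (b 0) (ρ.ρ σ) (hD σ hσ) v hv
  · intro σ hσ v
    exact s56bc_one_sub_mem (b 0) (ρ.ρ σ) (hI σ hσ) v

theorem s56bc_strictOrdinary (p : ℕ) (h : ρ.IsStrictOrdinaryAt p) :
    (ρ.baseChangeAlong φ hφ).IsStrictOrdinaryAt p := by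
  letI : Algebra A B := φ.toAlgebra
  refine ⟨s56bc_natCast_mem φ hφ p h.1, fun P hP => ?_⟩
  obtain ⟨L, ⟨b, rfl⟩, hD, hI, hchar⟩ := h.2 P hP
  refine ⟨Submodule.span B {(1 : B) ⊗ₜ[A] b 0}, ⟨b.baseChange B, ?_⟩, ?_, ?_, ?_⟩
  · exact s56bc_span_eq b
  · intro σ hσ v hv
    exact s56bc_stable (b 0) (ρ.ρ σ) (hD σ hσ) v hv
  · intro σ hσ v
    exact s56bc_one_sub_mem (b 0) (ρ.ρ σ) (hI σ hσ) v
  · intro σ hσ
    obtain ⟨x, z, hx, hz, hxz⟩ := hchar σ hσ
    refine ⟨φ x, φ z, ?_, ?_, ?_⟩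
    · intro w hw
      exact s56bc_eigen (b 0) (ρ.ρ σ) x hx w hw
    · intro v
      exact s56bc_sub_smul_mem (b 0) (ρ.ρ σ) z hz v
    · intro n a ha
      have h1 := s56bc_map_mem_span φ p n _ (hxz n a ha)
      rwa [map_sub, map_mul, map_natCast] at h1

end BC

end Fermat.Agent.S56
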