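import Mathlib
import Fermat.Prelude.Def_GaloisRep_Flat
import Fermat.Agent.S56.PS.BaseChange

/-!
# S56, node (BC), part 2: flatness at `p` is stable under surjective base change

For a surjective local homomorphism `φ : A → B` and `ρ : GaloisRepAdic A` flat at `p`
(`GaloisRepAdic.IsFlatAt`), the base change `ρ.baseChangeAlong φ hφ` is flat at `p`: for an ideal
`I` of `B` the quotient `(B ⊗ V) / I (B ⊗ V)` is `V / φ⁻¹(I) V`, Galois equivariantly.
-/

set_option autoImplicit false
set_option linter.style.haveILetI false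
set_option linter.unusedSectionVars false

open IsLocalRing TensorProduct

namespace Fermat.Agent.S56

noncomputable section

section Quot

variable {A B : Type} [CommRing A] [CommRing B] [Algebra A B]
  {V : Type} [AddCommGroup V] [Module A V]

/-- the map `V / φ⁻¹(I) V → (B ⊗ V) / I (B ⊗ V)`. -/
def s56bc_fwd (I : Ideal B) :
    V ⧸ ((I.comap (algebraMap A B)) • (⊤ : Submodule A V)) →ₗ[A]
      (B ⊗[A] V) ⧸ (I • (⊤ : Submodule B (B ⊗[A] V))) :=
  Submodule.liftQ _
    (((I • (⊤ : Submodule B (B ⊗[A] V))).mkQ.restrictScalars A).comp (TensorProduct.mk A B V 1))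
    (by
      rw [Submodule.smul_le]
      intro a ha v _
      rw [LinearMap.mem_ker, LinearMap.comp_apply, LinearMap.restrictScalars_apply,
        Submodule.mkQ_apply, Submodule.Quotient.mk_eq_zero, TensorProduct.mk_apply,
        TensorProduct.tmul_smul, ← algebraMap_smul B a ((1 : B) ⊗ₜ[A] v)]
      exact Submodule.smul_mem_smul (Ideal.mem_comap.mp ha) Submodule.mem_top)

theorem s56bc_fwd_mk (I : Ideal B) (v : V) :
    s56bc_fwd (A := A) I (Submodule.Quotient.mk v) =
      Submodule.Quotient.mk ((1 : B) ⊗ₜ[A] v) := rfl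

variable (hsurj : Function.Surjective (algebraMap A B))

include hsurj in
theorem s56bc_fwd_surjective (I : Ideal B) :
    Function.Surjective (s56bc_fwd (A := A) (V := V) I) := by
  intro y
  obtain ⟨w, rfl⟩ := Submodule.Quotient.mk_surjective _ y
  induction w using TensorProduct.induction_on with
  | zero => exact ⟨0, by rw [map_zero]; rfl⟩
  | tmul c v =>
    obtain ⟨a, rfl⟩ := hsurj c
    refine ⟨Submodule.Quotient.mk (a • v), ?_⟩
    rw [s56bc_fwd_mk, TensorProduct.tmul_smul, TensorProduct.smul_tmul', Algebra.smul_def,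
      mul_one]
  | add x y hx hy =>
    obtain ⟨x', hx'⟩ := hx
    obtain ⟨y', hy'⟩ := hy
    refine ⟨x' + y', ?_⟩
    rw [map_add, hx', hy']
    rfl

/-- the auxiliary inverse, defined through a set-theoretic section of `A → B`. -/
def s56bc_bwd (I : Ideal B) :
    B ⊗[A] V →ₗ[A] V ⧸ ((I.comap (algebraMap A B)) • (⊤ : Submodule A V)) :=
  TensorProduct.lift
    (LinearMap.mk₂ A (fun (b : B) (v : V) =>
        (Submodule.Quotient.mk (Function.surjInv hsurj b • v) :
          V ⧸ ((I.comap (algebraMap A B)) • (⊤ : Submodule A V))))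
      (by
        intro b b' v
        rw [← Submodule.Quotient.mk_add, ← add_smul, ← sub_eq_zero, ← Submodule.Quotient.mk_sub,
          Submodule.Quotient.mk_eq_zero, ← sub_smul]
        refine Submodule.smul_mem_smul ?_ Submodule.mem_top
        rw [Ideal.mem_comap, map_sub, map_add, Function.surjInv_eq hsurj,
          Function.surjInv_eq hsurj, Function.surjInv_eq hsurj, sub_self]
        exact Ideal.zero_mem _)
      (by
        intro a b v
        rw [← Submodule.Quotient.mk_smul, ← sub_eq_zero, ← Submodule.Quotient.mk_sub,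
          Submodule.Quotient.mk_eq_zero, smul_smul, ← sub_smul]
        refine Submodule.smul_mem_smul ?_ Submodule.mem_top
        rw [Ideal.mem_comap, map_sub, map_mul, Function.surjInv_eq hsurj,
          Function.surjInv_eq hsurj, Algebra.smul_def, sub_self]
        exact Ideal.zero_mem _)
      (by
        intro b v v'
        rw [smul_add, Submodule.Quotient.mk_add])
      (by
        intro a b v
        rw [smul_comm, Submodule.Quotient.mk_smul]))

theorem s56bc_bwd_tmul (I : Ideal B) (b : B) (v : V) :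
    s56bc_bwd (V := V) hsurj I (b ⊗ₜ[A] v) =
      Submodule.Quotient.mk (Function.surjInv hsurj b • v) := by
  rw [s56bc_bwd, TensorProduct.lift.tmul]
  rfl

theorem s56bc_bwd_eq_zero (I : Ideal B) (x : B ⊗[A] V)
    (hx : x ∈ (I • (⊤ : Submodule B (B ⊗[A] V)))) :
    s56bc_bwd (V := V) hsurj I x = 0 := by
  refine Submodule.smul_induction_on hx ?_ ?_
  · rintro c hc w -
    induction w using TensorProduct.induction_on with
    | zero => rw [smul_zero, map_zero]
    | tmul b v =>
      rw [TensorProduct.smul_tmul', smul_eq_mul, s56bc_bwd_tmul, Submodule.Quotient.mk_eq_zero]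
      refine Submodule.smul_mem_smul ?_ Submodule.mem_top
      rw [Ideal.mem_comap, Function.surjInv_eq hsurj]
      exact Ideal.mul_mem_right _ _ hc
    | add x y hx hy => rw [smul_add, map_add, hx, hy, add_zero]
  · intro x y hx hy
    rw [map_add, hx, hy, add_zero]

include hsurj in
theorem s56bc_fwd_injective (I : Ideal B) :
    Function.Injective (s56bc_fwd (A := A) (V := V) I) := by
  rw [← LinearMap.ker_eq_bot, LinearMap.ker_eq_bot']
  intro y hy
  obtain ⟨v, rfl⟩ := Submodule.Quotient.mk_surjective _ y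
  rw [s56bc_fwd_mk, Submodule.Quotient.mk_eq_zero] at hy
  have h1 := s56bc_bwd_eq_zero hsurj I _ hy
  rw [s56bc_bwd_tmul] at h1
  rw [← h1, ← sub_eq_zero, ← Submodule.Quotient.mk_sub, Submodule.Quotient.mk_eq_zero]
  have h2 : v - Function.surjInv hsurj (1 : B) • v = (1 - Function.surjInv hsurj (1 : B)) • v := by
    rw [sub_smul, one_smul]
  rw [h2]
  refine Submodule.smul_mem_smul ?_ Submodule.mem_top
  rw [Ideal.mem_comap, map_sub, map_one, Function.surjInv_eq hsurj, sub_self]
  exact Ideal.zero_mem _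

/-- the additive identification `V / φ⁻¹(I) V ≃ (B ⊗ V) / I (B ⊗ V)`. -/
def s56bc_quotEquiv (I : Ideal B) :
    V ⧸ ((I.comap (algebraMap A B)) • (⊤ : Submodule A V)) ≃+
      (B ⊗[A] V) ⧸ (I • (⊤ : Submodule B (B ⊗[A] V))) :=
  AddEquiv.ofBijective (s56bc_fwd (A := A) (V := V) I).toAddMonoidHom
    ⟨s56bc_fwd_injective hsurj I, s56bc_fwd_surjective hsurj I⟩

theorem s56bc_quotEquiv_mk (I : Ideal B) (v : V) :
    s56bc_quotEquiv (V := V) hsurj I (Submodule.Quotient.mk v) =
      Submodule.Quotient.mk ((1 : B) ⊗ₜ[A] v) := rfl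

end Quot

section Flat

variable {A B : Type} [CommRing A] [IsLocalRing A] [CommRing B] [IsLocalRing B]
  (φ : A →+* B) (hφ : IsLocalHom φ) (hsurj : Function.Surjective φ) (ρ : GaloisRepAdic A)

/-- compatibility of the level actions with the identification of the quotients. -/
theorem s56bc_level (I : Ideal B) (σ : AlgebraicClosure ℚ ≃ₐ[ℚ] AlgebraicClosure ℚ) :
    letI : Algebra A B := φ.toAlgebra
    ∀ x : ρ.V ⧸ ((I.comap (algebraMap A B)) • (⊤ : Submodule A ρ.V)),
      s56bc_quotEquiv (V := ρ.V) (show Function.Surjective (algebraMap A B) from hsurj) I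
          (ρ.levelAction (I.comap (algebraMap A B)) σ x) =
        (ρ.baseChangeAlong φ hφ).levelAction I σ
          (s56bc_quotEquiv (V := ρ.V) (show Function.Surjective (algebraMap A B) from hsurj) I x) := by
  letI : Algebra A B := φ.toAlgebra
  intro x
  obtain ⟨v, rfl⟩ := Submodule.Quotient.mk_surjective _ x
  have h1 : ρ.levelAction (I.comap (algebraMap A B)) σ (Submodule.Quotient.mk v) =
      Submodule.Quotient.mk (ρ.ρ σ v) := rfl
  rw [h1, s56bc_quotEquiv_mk, s56bc_quotEquiv_mk]
  show _ = Submodule.Quotient.mk ((ρ.ρ σ).baseChange B ((1 : B) ⊗ₜ[A] v))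
  rw [LinearMap.baseChange_tmul]

include hsurj in
theorem s56bc_flat (p : ℕ) (h : ρ.IsFlatAt p) : (ρ.baseChangeAlong φ hφ).IsFlatAt p := by
  letI : Algebra A B := φ.toAlgebra
  have hsurj' : Function.Surjective (algebraMap A B) := hsurj
  obtain ⟨hfin, hH⟩ := h
  refine ⟨?_, fun I hI => ?_⟩
  · haveI := hφ
    refine Finite.of_surjective (ResidueField.map φ) ?_
    intro y
    obtain ⟨b, rfl⟩ := residue_surjective y
    obtain ⟨a, rfl⟩ := hsurj b
    exact ⟨residue A a, rfl⟩
  · haveI : Finite (A ⧸ I.comap (algebraMap A B)) :=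
      Finite.of_injective (Ideal.quotientMap I (algebraMap A B) le_rfl)
        (Ideal.quotientMap_injective)
    obtain ⟨H, i1, i2, h1, h2, h3, e, he, hg⟩ := hH (I.comap (algebraMap A B)) inferInstance
    refine ⟨H, i1, i2, h1, h2, h3,
      e.trans (s56bc_quotEquiv (V := ρ.V) hsurj' I).toEquiv, ?_, ?_⟩
    · intro f g
      show s56bc_quotEquiv (V := ρ.V) hsurj' I (e (f * g)) =
        s56bc_quotEquiv (V := ρ.V) hsurj' I (e f) + s56bc_quotEquiv (V := ρ.V) hsurj' I (e g)
      rw [he, map_add]
    · intro σ f g hfg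
      show s56bc_quotEquiv (V := ρ.V) hsurj' I (e g) =
        (ρ.baseChangeAlong φ hφ).levelAction I σ (s56bc_quotEquiv (V := ρ.V) hsurj' I (e f))
      rw [hg σ f g hfg]
      exact s56bc_level φ hφ hsurj ρ I σ _

end Flat

end

end Fermat.Agent.S56
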