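import Mathlib
import Fermat.Agent.S53.EvalNilp
import Fermat.Agent.S53.PowerSeriesComplete

/-!
# S56, node [PS] (1): evaluation of power series at topologically nilpotent elements

For a local ring `R` which is complete for its maximal ideal, an `𝒪`-algebra structure and a
family `x : σ → R` of elements of the maximal ideal, we construct the `𝒪`-algebra homomorphism
`MvPowerSeries σ 𝒪 →ₐ[𝒪] R` with `X i ↦ x i` (prefix `s56ps_`).
-/

set_option autoImplicit false

open IsLocalRing MvPowerSeries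

namespace Fermat.Agent.S56

noncomputable section

section Lift

variable {σ : Type} [Finite σ] {𝒪 : Type} [CommRing 𝒪]
  {R : Type} [CommRing R] [IsLocalRing R] [Algebra 𝒪 R]

/-- the images of the `x i` in `R ⧸ 𝔪 ^ n`. -/
def s56ps_y (x : σ → R) (n : ℕ) : σ → R ⧸ maximalIdeal R ^ n :=
  fun i => Ideal.Quotient.mk (maximalIdeal R ^ n) (x i)

omit [Finite σ] in
theorem s56ps_y_pow (x : σ → R) (hx : ∀ i, x i ∈ maximalIdeal R) (n : ℕ) :
    (Ideal.span (Set.range (s56ps_y x n))) ^ n = ⊥ := by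
  have h1 : Ideal.span (Set.range (s56ps_y x n)) ≤
      (maximalIdeal R).map (Ideal.Quotient.mk (maximalIdeal R ^ n)) := by
    rw [Ideal.span_le]
    rintro _ ⟨i, rfl⟩
    exact Ideal.mem_map_of_mem _ (hx i)
  have h2 : ((maximalIdeal R).map (Ideal.Quotient.mk (maximalIdeal R ^ n))) ^ n = ⊥ := by
    rw [← Ideal.map_pow, Ideal.map_quotient_self]
  exact le_bot_iff.mp ((Ideal.pow_right_mono h1 n).trans h2.le)

/-- the level-`n` evaluation. -/
def s56ps_f (x : σ → R) (hx : ∀ i, x i ∈ maximalIdeal R) (n : ℕ) :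
    MvPowerSeries σ 𝒪 →ₐ[𝒪] R ⧸ maximalIdeal R ^ n :=
  S53.evalNilp (s56ps_y x n) n (s56ps_y_pow x hx n)

theorem s56ps_f_X (x : σ → R) (hx : ∀ i, x i ∈ maximalIdeal R) (n : ℕ) (i : σ) :
    s56ps_f (𝒪 := 𝒪) x hx n (X i) = Ideal.Quotient.mk (maximalIdeal R ^ n) (x i) :=
  S53.evalNilp_X _ _ _ i

theorem s56ps_f_compat (x : σ → R) (hx : ∀ i, x i ∈ maximalIdeal R) {m n : ℕ} (hle : m ≤ n) :
    (Ideal.Quotient.factorₐ 𝒪 (Ideal.pow_le_pow_right (I := maximalIdeal R) hle)).comp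
      (s56ps_f (𝒪 := 𝒪) x hx n) = s56ps_f x hx m := by
  apply S53.algHom_ext_of_pow_le_ker _ _ m
  · intro f hf
    rw [AlgHom.comp_apply]
    -- the image of `f` lies in `(𝔪 / 𝔪^n)^m`, which dies in `R / 𝔪^m`
    have h1 : s56ps_f (𝒪 := 𝒪) x hx n f ∈
        ((maximalIdeal R).map (Ideal.Quotient.mk (maximalIdeal R ^ n))) ^ m := by
      have h2 : ((Ideal.span (Set.range X) : Ideal (MvPowerSeries σ 𝒪)) ^ m).map
          (s56ps_f (𝒪 := 𝒪) x hx n) ≤
          ((maximalIdeal R).map (Ideal.Quotient.mk (maximalIdeal R ^ n))) ^ m := by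
        rw [Ideal.map_pow]
        apply Ideal.pow_right_mono
        rw [Ideal.map_span, Ideal.span_le]
        rintro _ ⟨_, ⟨i, rfl⟩, rfl⟩
        rw [s56ps_f_X]
        exact Ideal.mem_map_of_mem _ (hx i)
      exact h2 (Ideal.mem_map_of_mem _ hf)
    rw [← Ideal.map_pow] at h1
    obtain ⟨a, ha, ha'⟩ := (Ideal.mem_map_iff_of_surjective _ Ideal.Quotient.mk_surjective).mp h1
    rw [← ha']
    show Ideal.Quotient.factor (Ideal.pow_le_pow_right (I := maximalIdeal R) hle)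
      (Ideal.Quotient.mk _ a) = 0
    rw [Ideal.Quotient.factor_mk, Ideal.Quotient.eq_zero_iff_mem]
    exact ha
  · intro f hf
    exact S53.evalNilp_eq_zero_of_mem _ _ _ f hf
  · intro i
    rw [AlgHom.comp_apply, s56ps_f_X, s56ps_f_X]
    show Ideal.Quotient.factor (Ideal.pow_le_pow_right (I := maximalIdeal R) hle)
      (Ideal.Quotient.mk _ (x i)) = _
    rw [Ideal.Quotient.factor_mk]

theorem s56ps_f_compat' (x : σ → R) (hx : ∀ i, x i ∈ maximalIdeal R) {m n : ℕ} (hle : m ≤ n) :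
    (Ideal.Quotient.factorPow (maximalIdeal R) hle).comp
      (s56ps_f (𝒪 := 𝒪) x hx n : MvPowerSeries σ 𝒪 →+* R ⧸ maximalIdeal R ^ n) =
      (s56ps_f (𝒪 := 𝒪) x hx m : MvPowerSeries σ 𝒪 →+* R ⧸ maximalIdeal R ^ m) := by
  ext f
  have := congrArg (fun g => g f) (s56ps_f_compat (𝒪 := 𝒪) x hx hle)
  exact this

variable [IsAdicComplete (maximalIdeal R) R]

/-- the underlying ring homomorphism of the evaluation at `x`. -/
def s56ps_evalRingHom (x : σ → R) (hx : ∀ i, x i ∈ maximalIdeal R) :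
    MvPowerSeries σ 𝒪 →+* R :=
  IsAdicComplete.liftRingHom (maximalIdeal R)
    (fun n => (s56ps_f (𝒪 := 𝒪) x hx n : MvPowerSeries σ 𝒪 →+* R ⧸ maximalIdeal R ^ n))
    (fun hle => s56ps_f_compat' x hx hle)

theorem s56ps_mk_evalRingHom (x : σ → R) (hx : ∀ i, x i ∈ maximalIdeal R) (n : ℕ)
    (f : MvPowerSeries σ 𝒪) :
    Ideal.Quotient.mk (maximalIdeal R ^ n) (s56ps_evalRingHom x hx f) = s56ps_f x hx n f :=
  IsAdicComplete.mk_liftRingHom (maximalIdeal R)
    (fun n => (s56ps_f (𝒪 := 𝒪) x hx n : MvPowerSeries σ 𝒪 →+* R ⧸ maximalIdeal R ^ n))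
    (fun hle => s56ps_f_compat' x hx hle) n f

theorem s56ps_eq_of_forall_mk {a b : R}
    (h : ∀ n, Ideal.Quotient.mk (maximalIdeal R ^ n) a = Ideal.Quotient.mk (maximalIdeal R ^ n) b) :
    a = b := by
  have hH : IsHausdorff (maximalIdeal R) R := inferInstance
  rw [← sub_eq_zero]
  apply hH.haus
  intro n
  rw [SModEq.zero, smul_eq_mul, Ideal.mul_top, ← Ideal.Quotient.eq]
  exact h n

/-- **Evaluation of power series** at a family of elements of the maximal ideal of a complete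
local `𝒪`-algebra. -/
def s56ps_eval (x : σ → R) (hx : ∀ i, x i ∈ maximalIdeal R) : MvPowerSeries σ 𝒪 →ₐ[𝒪] R :=
  { s56ps_evalRingHom (𝒪 := 𝒪) x hx with
    commutes' := by
      intro o
      apply s56ps_eq_of_forall_mk
      intro n
      show Ideal.Quotient.mk _ (s56ps_evalRingHom x hx _) = _
      rw [s56ps_mk_evalRingHom, AlgHom.commutes]
      rfl }

theorem s56ps_mk_eval (x : σ → R) (hx : ∀ i, x i ∈ maximalIdeal R) (n : ℕ)
    (f : MvPowerSeries σ 𝒪) :
    Ideal.Quotient.mk (maximalIdeal R ^ n) (s56ps_eval x hx f) = s56ps_f x hx n f :=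
  s56ps_mk_evalRingHom x hx n f

theorem s56ps_eval_X (x : σ → R) (hx : ∀ i, x i ∈ maximalIdeal R) (i : σ) :
    s56ps_eval (𝒪 := 𝒪) x hx (X i) = x i := by
  apply s56ps_eq_of_forall_mk
  intro n
  rw [s56ps_mk_eval, s56ps_f_X]

end Lift

end

end Fermat.Agent.S56
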