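import Mathlib
import Fermat.Agent.S56.PS.Lift

/-!
# S56, node [PS] (2): a complete local `𝒪`-algebra is a quotient of a power series ring

`s56ps_surj`: if `R` is a complete local `𝒪`-algebra with residue field `k = 𝒪/𝔪_𝒪` whose maximal
ideal is generated by `𝔪_𝒪` and `x_1, …, x_r`, then the evaluation `𝒪⟦X_1..X_r⟧ → R`, `X_i ↦ x_i`,
is surjective.
-/

set_option autoImplicit false

open IsLocalRing MvPowerSeries

namespace Fermat.Agent.S56

noncomputable section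

section Surj

variable {σ : Type} [Finite σ] {𝒪 : Type} [CommRing 𝒪] [IsLocalRing 𝒪]
  {R : Type} [CommRing R] [IsLocalRing R] [Algebra 𝒪 R] [IsAdicComplete (maximalIdeal R) R]

theorem s56ps_map_maximalIdeal (x : σ → R) (hx : ∀ i, x i ∈ maximalIdeal R)
    (hxm : maximalIdeal R =
      (maximalIdeal 𝒪).map (algebraMap 𝒪 R) ⊔ Ideal.span (Set.range x)) :
    (maximalIdeal (MvPowerSeries σ 𝒪)).map (s56ps_eval (𝒪 := 𝒪) x hx) = maximalIdeal R := by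
  have h1 : (Ideal.span (Set.range X) : Ideal (MvPowerSeries σ 𝒪)).map
      (s56ps_eval (𝒪 := 𝒪) x hx) = Ideal.span (Set.range x) := by
    rw [Ideal.map_span]
    congr 1
    ext a
    constructor
    · rintro ⟨_, ⟨i, rfl⟩, rfl⟩
      exact ⟨i, (s56ps_eval_X x hx i).symm⟩
    · rintro ⟨i, rfl⟩
      exact ⟨X i, ⟨i, rfl⟩, s56ps_eval_X x hx i⟩
  have h2 : ((maximalIdeal 𝒪).map (algebraMap 𝒪 (MvPowerSeries σ 𝒪))).map
      (s56ps_eval (𝒪 := 𝒪) x hx) = (maximalIdeal 𝒪).map (algebraMap 𝒪 R) := by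
    show Ideal.map ((s56ps_eval (𝒪 := 𝒪) x hx : MvPowerSeries σ 𝒪 →ₐ[𝒪] R) :
      MvPowerSeries σ 𝒪 →+* R) (Ideal.map (algebraMap 𝒪 (MvPowerSeries σ 𝒪)) (maximalIdeal 𝒪)) = _
    rw [Ideal.map_map, AlgHom.comp_algebraMap]
  rw [S53.maximalIdeal_mvPowerSeries_eq, Ideal.map_sup, h1, h2, hxm, sup_comm]

theorem s56ps_map_pow (x : σ → R) (hx : ∀ i, x i ∈ maximalIdeal R)
    (hxm : maximalIdeal R =
      (maximalIdeal 𝒪).map (algebraMap 𝒪 R) ⊔ Ideal.span (Set.range x)) (n : ℕ) :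
    (maximalIdeal (MvPowerSeries σ 𝒪) ^ n).map (s56ps_eval (𝒪 := 𝒪) x hx) = maximalIdeal R ^ n := by
  rw [Ideal.map_pow, s56ps_map_maximalIdeal x hx hxm]

theorem s56ps_approx (hres : Function.Surjective (residue R ∘ algebraMap 𝒪 R))
    (x : σ → R) (hx : ∀ i, x i ∈ maximalIdeal R)
    (hxm : maximalIdeal R =
      (maximalIdeal 𝒪).map (algebraMap 𝒪 R) ⊔ Ideal.span (Set.range x)) (n : ℕ)
    (a : R) (ha : a ∈ maximalIdeal R ^ n) :
    ∃ t ∈ maximalIdeal (MvPowerSeries σ 𝒪) ^ n,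
      a - s56ps_eval (𝒪 := 𝒪) x hx t ∈ maximalIdeal R ^ (n + 1) := by
  have hmap := s56ps_map_pow (𝒪 := 𝒪) x hx hxm n
  rw [← hmap] at ha
  have key : ∀ a ∈ (maximalIdeal (MvPowerSeries σ 𝒪) ^ n).map (s56ps_eval (𝒪 := 𝒪) x hx),
      a ∈ maximalIdeal R ^ n ∧ ∃ t ∈ maximalIdeal (MvPowerSeries σ 𝒪) ^ n,
        a - s56ps_eval (𝒪 := 𝒪) x hx t ∈ maximalIdeal R ^ (n + 1) := by
    intro a ha
    refine Submodule.span_induction (p := fun a _ => a ∈ maximalIdeal R ^ n ∧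
      ∃ t ∈ maximalIdeal (MvPowerSeries σ 𝒪) ^ n,
        a - s56ps_eval (𝒪 := 𝒪) x hx t ∈ maximalIdeal R ^ (n + 1)) ?_ ?_ ?_ ?_ ha
    · rintro _ ⟨t, ht, rfl⟩
      refine ⟨?_, t, ht, by rw [sub_self]; exact Ideal.zero_mem _⟩
      rw [← hmap]
      exact Ideal.mem_map_of_mem _ ht
    · exact ⟨Ideal.zero_mem _, 0, Ideal.zero_mem _, by rw [map_zero, sub_zero]; exact Ideal.zero_mem _⟩
    · rintro a b _ _ ⟨ha, t, ht, hat⟩ ⟨hb, u, hu, hbu⟩
      refine ⟨Ideal.add_mem _ ha hb, t + u, Ideal.add_mem _ ht hu, ?_⟩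
      have : a + b - s56ps_eval (𝒪 := 𝒪) x hx (t + u) =
          (a - s56ps_eval (𝒪 := 𝒪) x hx t) + (b - s56ps_eval (𝒪 := 𝒪) x hx u) := by
        rw [map_add]; ring
      rw [this]
      exact Ideal.add_mem _ hat hbu
    · rintro c a _ ⟨ha, t, ht, hat⟩
      obtain ⟨o, ho⟩ := hres (residue R c)
      have hu : c - algebraMap 𝒪 R o ∈ maximalIdeal R := by
        rw [← residue_eq_zero_iff, map_sub, sub_eq_zero]
        exact ho.symm
      refine ⟨Ideal.mul_mem_left _ _ ha, algebraMap 𝒪 _ o * t, Ideal.mul_mem_left _ _ ht, ?_⟩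
      have : c • a - s56ps_eval (𝒪 := 𝒪) x hx (algebraMap 𝒪 _ o * t) =
          algebraMap 𝒪 R o * (a - s56ps_eval (𝒪 := 𝒪) x hx t) + (c - algebraMap 𝒪 R o) * a := by
        rw [map_mul, AlgHom.commutes, smul_eq_mul]; ring
      rw [this]
      refine Ideal.add_mem _ (Ideal.mul_mem_left _ _ hat) ?_
      rw [pow_succ']
      exact Ideal.mul_mem_mul hu ha
  exact (key a ha).2

variable [IsNoetherianRing 𝒪] [IsAdicComplete (maximalIdeal 𝒪) 𝒪]

/-- **(PS1)** the evaluation at generators of `𝔪_R` modulo `𝔪_𝒪` is surjective. -/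
theorem s56ps_eval_surjective (hres : Function.Surjective (residue R ∘ algebraMap 𝒪 R))
    (x : σ → R) (hx : ∀ i, x i ∈ maximalIdeal R)
    (hxm : maximalIdeal R =
      (maximalIdeal 𝒪).map (algebraMap 𝒪 R) ⊔ Ideal.span (Set.range x)) :
    Function.Surjective (s56ps_eval (𝒪 := 𝒪) x hx) := by
  classical
  intro a
  have step : ∀ (n : ℕ) (s : MvPowerSeries σ 𝒪),
      a - s56ps_eval (𝒪 := 𝒪) x hx s ∈ maximalIdeal R ^ n →
      ∃ s' : MvPowerSeries σ 𝒪, a - s56ps_eval (𝒪 := 𝒪) x hx s' ∈ maximalIdeal R ^ (n + 1) ∧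
        s' - s ∈ maximalIdeal (MvPowerSeries σ 𝒪) ^ n := by
    intro n s hs
    obtain ⟨t, ht, h⟩ := s56ps_approx hres x hx hxm n _ hs
    refine ⟨s + t, ?_, by rwa [add_sub_cancel_left]⟩
    have : a - s56ps_eval (𝒪 := 𝒪) x hx (s + t) =
        a - s56ps_eval (𝒪 := 𝒪) x hx s - s56ps_eval (𝒪 := 𝒪) x hx t := by
      rw [map_add]; ring
    rw [this]
    exact h
  let seq : (n : ℕ) →
      {s : MvPowerSeries σ 𝒪 // a - s56ps_eval (𝒪 := 𝒪) x hx s ∈ maximalIdeal R ^ n} :=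
    fun n => Nat.rec ⟨0, by rw [pow_zero, Ideal.one_eq_top]; exact Submodule.mem_top⟩
      (fun n s => ⟨(step n s.1 s.2).choose, (step n s.1 s.2).choose_spec.1⟩) n
  have hseq : ∀ n, (seq (n + 1)).1 - (seq n).1 ∈ maximalIdeal (MvPowerSeries σ 𝒪) ^ n :=
    fun n => (step n (seq n).1 (seq n).2).choose_spec.2
  obtain ⟨L, hL⟩ := S53.exists_limit_of_succ (maximalIdeal (MvPowerSeries σ 𝒪))
    (fun j => (seq j).1) 0 (fun j => by rw [zero_add]; exact hseq j)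
  refine ⟨L, ?_⟩
  symm
  apply s56ps_eq_of_forall_mk
  intro n
  rw [Ideal.Quotient.eq]
  have h1 : a - s56ps_eval (𝒪 := 𝒪) x hx L =
      (a - s56ps_eval (𝒪 := 𝒪) x hx (seq n).1) - s56ps_eval (𝒪 := 𝒪) x hx (L - (seq n).1) := by
    rw [map_sub]; ring
  rw [h1]
  refine Ideal.sub_mem _ (seq n).2 ?_
  have h2 := hL n
  rw [zero_add] at h2
  have h3 := Ideal.mem_map_of_mem (s56ps_eval (𝒪 := 𝒪) x hx) h2
  rw [s56ps_map_pow (𝒪 := 𝒪) x hx hxm n] at h3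
  exact h3

/-- **(PS1)**, existential form. -/
theorem s56ps_surj (hres : Function.Surjective (residue R ∘ algebraMap 𝒪 R))
    (x : σ → R)
    (hxm : maximalIdeal R =
      (maximalIdeal 𝒪).map (algebraMap 𝒪 R) ⊔ Ideal.span (Set.range x)) :
    ∃ γ : MvPowerSeries σ 𝒪 →ₐ[𝒪] R, (∀ i, γ (X i) = x i) ∧ Function.Surjective γ := by
  have hx : ∀ i, x i ∈ maximalIdeal R := by
    intro i
    rw [hxm]
    exact Ideal.mem_sup_right (Ideal.subset_span ⟨i, rfl⟩)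
  exact ⟨s56ps_eval x hx, s56ps_eval_X x hx, s56ps_eval_surjective hres x hx hxm⟩

end Surj

end

end Fermat.Agent.S56
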