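import Mathlib
import Fermat.Agent.S56.PS.Surj
import Fermat.Agent.S53.Tangent
import Fermat.Agent.S53.GoodIdeals.CotangentHoms

/-!
# S56, node [PS] (3): from a bound on the tangent space to a power series presentation

* `s56ps_exists_gens`: if the relative cotangent space of `R` over `𝒪` has dimension `≤ r`, then
  `𝔪_R` is generated by `𝔪_𝒪` and `r` further elements.
* `s56ps_surj_of_finrank_le`, `s56ps_surj_of_card_le` **(PS2)**: a complete Noetherian local
  `𝒪`-algebra with residue field `k` having at most `|k| ^ r` algebra maps to `k[ε]` is a quotient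
  of `𝒪⟦X_1, …, X_r⟧`.
-/

set_option autoImplicit false
set_option linter.style.haveILetI false

open IsLocalRing MvPowerSeries

namespace Fermat.Agent.S56

noncomputable section

section Gens

variable {𝒪 : Type} [CommRing 𝒪] [IsLocalRing 𝒪]
  {R : Type} [CommRing R] [IsLocalRing R] [Algebra 𝒪 R] [IsLocalHom (algebraMap 𝒪 R)]

theorem s56ps_exists_gens [IsNoetherianRing R] (r : ℕ)
    (hd : Module.finrank (ResidueField R) (CotangentSpace R ⧸ S53.cbW 𝒪 R) ≤ r) :
    ∃ x : Fin r → R, maximalIdeal R =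
      (maximalIdeal 𝒪).map (algebraMap 𝒪 R) ⊔ Ideal.span (Set.range x) := by
  classical
  set d := Module.finrank (ResidueField R) (CotangentSpace R ⧸ S53.cbW 𝒪 R) with hdd
  let b := Module.finBasis (ResidueField R) (CotangentSpace R ⧸ S53.cbW 𝒪 R)
  have hx' : ∀ i : Fin d, ∃ x : maximalIdeal R,
      (S53.cbW 𝒪 R).mkQ ((maximalIdeal R).toCotangent x) = b i := by
    intro i
    obtain ⟨v, hv⟩ := Submodule.mkQ_surjective (S53.cbW 𝒪 R) (b i)
    obtain ⟨x, rfl⟩ := (maximalIdeal R).toCotangent_surjective v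
    exact ⟨x, hv⟩
  choose x' hx' using hx'
  let x : Fin r → R := fun i => if h : (i : ℕ) < d then (x' ⟨i, h⟩ : R) else 0
  have hxx' : ∀ i : Fin d, (x' i : R) ∈ Set.range x := by
    intro i
    refine ⟨⟨i, lt_of_lt_of_le i.2 hd⟩, ?_⟩
    show (if h : (i : ℕ) < d then (x' ⟨i, h⟩ : R) else 0) = _
    rw [dif_pos i.2]
  have hPmem : ∀ p : maximalIdeal 𝒪, algebraMap 𝒪 R p ∈ maximalIdeal R := fun p =>
    map_nonunit (algebraMap 𝒪 R) p p.2
  let S : Set (maximalIdeal R) := Set.range x' ∪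
    Set.range fun p : maximalIdeal 𝒪 => (⟨algebraMap 𝒪 R p, hPmem p⟩ : maximalIdeal R)
  set U : Submodule (ResidueField R) (CotangentSpace R) :=
    Submodule.span (ResidueField R) ((maximalIdeal R).toCotangent '' S) with hU
  have hWU : S53.cbW 𝒪 R ≤ U := by
    refine Submodule.span_le.mpr ?_
    rintro _ ⟨p, rfl⟩
    exact Submodule.subset_span ⟨_, Or.inr ⟨p, rfl⟩, rfl⟩
  have hUtop : U = ⊤ := by
    have h1 : Submodule.map (S53.cbW 𝒪 R).mkQ U = ⊤ := by
      rw [eq_top_iff, ← b.span_eq]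
      refine Submodule.span_le.mpr ?_
      rintro _ ⟨i, rfl⟩
      refine ⟨(maximalIdeal R).toCotangent (x' i), ?_, hx' i⟩
      exact Submodule.subset_span ⟨x' i, Or.inl ⟨i, rfl⟩, rfl⟩
    rw [Submodule.map_mkQ_eq_top] at h1
    rwa [sup_eq_right.mpr hWU] at h1
  have hStop : Submodule.span R S = ⊤ := CotangentSpace.span_image_eq_top_iff.mp hUtop
  refine ⟨x, ?_⟩
  apply le_antisymm
  · intro y hy
    have h1 : (⟨y, hy⟩ : maximalIdeal R) ∈ Submodule.span R S := by
      rw [hStop]; exact Submodule.mem_top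
    have h2 : Submodule.map (maximalIdeal R).subtype (Submodule.span R S) ≤
        (maximalIdeal 𝒪).map (algebraMap 𝒪 R) ⊔ Ideal.span (Set.range x) := by
      rw [Submodule.map_span]
      refine Submodule.span_le.mpr ?_
      rintro _ ⟨z, hz, rfl⟩
      rcases hz with ⟨i, rfl⟩ | ⟨p, rfl⟩
      · exact Ideal.mem_sup_right (Ideal.subset_span (hxx' i))
      · exact Ideal.mem_sup_left (Ideal.mem_map_of_mem _ p.2)
    exact h2 ⟨⟨y, hy⟩, h1, rfl⟩
  · refine sup_le ?_ ?_
    · rw [Ideal.map_le_iff_le_comap]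
      intro p hp
      exact hPmem ⟨p, hp⟩
    · rw [Ideal.span_le]
      rintro _ ⟨i, rfl⟩
      show (if h : (i : ℕ) < d then (x' ⟨i, h⟩ : R) else 0) ∈ maximalIdeal R
      split_ifs with h
      · exact (x' ⟨i, h⟩).2
      · exact Ideal.zero_mem _

variable [IsNoetherianRing 𝒪] [IsAdicComplete (maximalIdeal 𝒪) 𝒪]
  [IsNoetherianRing R] [IsAdicComplete (maximalIdeal R) R]

/-- **(PS2)**, cotangent form. -/
theorem s56ps_surj_of_finrank_le (hres : Function.Surjective (residue R ∘ algebraMap 𝒪 R))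
    (r : ℕ)
    (hd : Module.finrank (ResidueField R) (CotangentSpace R ⧸ S53.cbW 𝒪 R) ≤ r) :
    ∃ γ : MvPowerSeries (Fin r) 𝒪 →ₐ[𝒪] R, Function.Surjective γ := by
  obtain ⟨x, hx⟩ := s56ps_exists_gens (𝒪 := 𝒪) (R := R) r hd
  obtain ⟨γ, -, hγ⟩ := s56ps_surj hres x hx
  exact ⟨γ, hγ⟩

/-- **(PS2)**: at most `|k| ^ r` algebra homomorphisms to the dual numbers. -/
theorem s56ps_surj_of_card_le [Finite (ResidueField 𝒪)]
    (hres : Function.Surjective (residue R ∘ algebraMap 𝒪 R)) (r : ℕ)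
    (hN : letI := S53.dualNumberAlgebra 𝒪
      ∀ F : Finset (R →ₐ[𝒪] DualNumber (ResidueField 𝒪)),
        F.card ≤ Nat.card (ResidueField 𝒪) ^ r) :
    ∃ γ : MvPowerSeries (Fin r) 𝒪 →ₐ[𝒪] R, Function.Surjective γ := by
  letI := S53.dualNumberAlgebra 𝒪
  have h1 := S53.cb_pow_finrank_le (𝒪 := 𝒪) (A := R) hres
    (fun o => by
      show algebraMap (ResidueField 𝒪) (DualNumber (ResidueField 𝒪)) (residue 𝒪 o) = _
      rfl) _ hN
  have h2 : Module.finrank (ResidueField R) (CotangentSpace R ⧸ S53.cbW 𝒪 R) ≤ r :=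
    (Nat.pow_le_pow_iff_right Finite.one_lt_card).mp h1
  exact s56ps_surj_of_finrank_le hres r h2

end Gens

end

end Fermat.Agent.S56
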