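import Mathlib
import Fermat.Prelude.Def_GaloisRep_DeformationRingData
import Fermat.Agent.S56.PS.Gens
import Fermat.Agent.S53.Tangent
import Fermat.Agent.S53.BaseChangeLemmas
import Fermat.Agent.S53.ArtinUniversal

/-!
# S56, node [PS] (4): the tangent space of a deformation ring

For `DQ : GaloisRep.DeformationRingData 𝒪 ρbar 𝒟` and an `𝒪`-algebra map `φ : DQ.R → k[ε]` we form
the specialisation `s56ps_spec DQ φ` of the universal deformation. By the uniqueness clause of the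
universal property, `φ` is determined by the equivalence class of its specialisation as soon as
surjective `φ` have specialisations of type `𝒟` (`s56ps_spec_inj`). Hence **(PS3)**
(`s56ps_main`): if any family of `𝒪`-algebra maps `DQ.R → k[ε]` with pairwise inequivalent
specialisations has at most `|k| ^ r` members, then `DQ.R` is a quotient of `𝒪⟦X_1, …, X_r⟧`.
-/

set_option autoImplicit false
set_option linter.style.haveILetI false

open IsLocalRing MvPowerSeries

namespace Fermat.Agent.S56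

noncomputable section

section Nilp

variable {A : Type} [CommRing A]

/-- a ring is complete for any nilpotent ideal. -/
theorem s56ps_isAdicComplete_of_pow_eq_bot (I : Ideal A) (n : ℕ) (hI : I ^ n = ⊥) :
    IsAdicComplete I A := by
  have hsm : ∀ (m : ℕ) (x y : A), x ≡ y [SMOD (I ^ m • ⊤ : Submodule A A)] ↔
      x - y ∈ I ^ m := by
    intro m x y
    rw [SModEq.sub_mem, smul_eq_mul, Ideal.mul_top]
  haveI : IsHausdorff I A := ⟨fun x hx => by
    have h := (hsm n x 0).mp (hx n)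
    rwa [hI, Ideal.mem_bot, sub_zero] at h⟩
  haveI : IsPrecomplete I A := ⟨fun {f} hf => by
    refine ⟨f n, fun m => ?_⟩
    rcases le_total m n with hmn | hmn
    · exact hf hmn
    · have h := (hsm n _ _).mp (hf hmn)
      rw [hI, Ideal.mem_bot, sub_eq_zero] at h
      rw [h]⟩
  exact {}

end Nilp

section Dual

variable (K : Type) [Field K]

theorem s56ps_maximalIdeal_dualNumber_sq : maximalIdeal (DualNumber K) ^ 2 = ⊥ := by
  rw [eq_bot_iff, pow_two, Ideal.mul_le]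
  intro a ha b hb
  rw [S53.mem_maximalIdeal_dualNumber_iff] at ha hb
  rw [Ideal.mem_bot]
  ext
  · rw [TrivSqZeroExt.fst_mul, ha, zero_mul, TrivSqZeroExt.fst_zero]
  · rw [TrivSqZeroExt.snd_mul, ha, hb]
    simp

instance s56ps_isAdicComplete_dualNumber :
    IsAdicComplete (maximalIdeal (DualNumber K)) (DualNumber K) :=
  s56ps_isAdicComplete_of_pow_eq_bot _ 2 (s56ps_maximalIdeal_dualNumber_sq K)

instance s56ps_isNoetherianRing_dualNumber : IsNoetherianRing (DualNumber K) := by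
  haveI : Module.Finite K (DualNumber K) :=
    inferInstanceAs (Module.Finite K (K × K))
  exact IsNoetherianRing.of_finite K _

end Dual

section Spec

variable {𝒪 : Type} [CommRing 𝒪] [IsDomain 𝒪] [IsDiscreteValuationRing 𝒪]
  [IsAdicComplete (maximalIdeal 𝒪) 𝒪]
  {ρbar : ResidualGaloisRep (ResidueField 𝒪)}
  {𝒟 : ∀ ⦃A : Type⦄ [CommRing A] [IsLocalRing A] [Algebra 𝒪 A], GaloisRepAdic A → Prop}

attribute [local instance] S53.dualNumberAlgebra

/-- every `𝒪`-algebra map from a deformation ring to the dual numbers is local. -/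
theorem s56ps_isLocalHom (DQ : GaloisRep.DeformationRingData 𝒪 ρbar 𝒟)
    (φ : DQ.R →ₐ[𝒪] DualNumber (ResidueField 𝒪)) :
    IsLocalHom (φ : DQ.R →+* DualNumber (ResidueField 𝒪)) :=
  haveI := S53.isLocalHom_algebraMap_dualNumber 𝒪
  S53.isLocalHom_of_residue_surjective
    (S53.isArtinianTestAlgebra_dualNumber 𝒪).residue_surjective φ

/-- the specialisation of the universal deformation along `φ : DQ.R → k[ε]`. -/
def s56ps_spec (DQ : GaloisRep.DeformationRingData 𝒪 ρbar 𝒟)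
    (φ : DQ.R →ₐ[𝒪] DualNumber (ResidueField 𝒪)) :
    GaloisRepAdic (DualNumber (ResidueField 𝒪)) :=
  DQ.ρ.baseChangeAlong (φ : DQ.R →+* DualNumber (ResidueField 𝒪)) (s56ps_isLocalHom DQ φ)

theorem s56ps_spec_residual (DQ : GaloisRep.DeformationRingData 𝒪 ρbar 𝒟)
    (φ : DQ.R →ₐ[𝒪] DualNumber (ResidueField 𝒪)) :
    haveI := S53.isLocalHom_algebraMap_dualNumber 𝒪
    (s56ps_spec DQ φ).residual.IsEquiv (ρbar.baseChangeAlong
      (ResidueField.map (algebraMap 𝒪 (DualNumber (ResidueField 𝒪))))) :=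
  haveI := S53.isLocalHom_algebraMap_dualNumber 𝒪
  S53.residual_isEquiv_baseChangeAlong ρbar DQ.ρ DQ.residual_isEquiv φ (s56ps_isLocalHom DQ φ)

/-- the uniqueness clause of the universal property, for the dual numbers. -/
theorem s56ps_spec_inj_of_type (DQ : GaloisRep.DeformationRingData 𝒪 ρbar 𝒟)
    (φ φ' : DQ.R →ₐ[𝒪] DualNumber (ResidueField 𝒪)) (h𝒟 : 𝒟 (s56ps_spec DQ φ))
    (h : (s56ps_spec DQ φ).IsEquiv (s56ps_spec DQ φ')) : φ = φ' := by
  haveI := S53.isLocalHom_algebraMap_dualNumber 𝒪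
  obtain ⟨ψ, -, hψ⟩ := DQ.universal (DualNumber (ResidueField 𝒪))
    (S53.isArtinianTestAlgebra_dualNumber 𝒪).residue_surjective (s56ps_spec DQ φ) h𝒟
    (s56ps_spec_residual DQ φ)
  have h1 : φ = ψ := hψ φ ⟨s56ps_isLocalHom DQ φ, ⟨GaloisRepAdic.Equiv.refl _⟩⟩
  have h2 : φ' = ψ := by
    obtain ⟨e⟩ := h
    exact hψ φ' ⟨s56ps_isLocalHom DQ φ', ⟨e.symm⟩⟩
  rw [h1, h2]

/-- a map to the dual numbers with a nonzero `ε`-component on the maximal ideal is onto. -/
theorem s56ps_surjective_of_snd_ne_zero (DQ : GaloisRep.DeformationRingData 𝒪 ρbar 𝒟)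
    (φ : DQ.R →ₐ[𝒪] DualNumber (ResidueField 𝒪)) (u : DQ.R)
    (hu1 : TrivSqZeroExt.fst (φ u) = 0) (hu2 : TrivSqZeroExt.snd (φ u) ≠ 0) :
    Function.Surjective φ := by
  intro y
  obtain ⟨c, hc⟩ := residue_surjective (R := 𝒪) (TrivSqZeroExt.fst y)
  obtain ⟨e, he⟩ := residue_surjective (R := 𝒪)
    (TrivSqZeroExt.snd y * (TrivSqZeroExt.snd (φ u))⁻¹)
  refine ⟨algebraMap 𝒪 DQ.R c + algebraMap 𝒪 DQ.R e * u, ?_⟩
  rw [map_add, map_mul, AlgHom.commutes, AlgHom.commutes, S53.algebraMap_dualNumber_apply,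
    S53.algebraMap_dualNumber_apply, hc, he]
  ext
  · simp [TrivSqZeroExt.algebraMap_eq_inl, hu1]
  · simp [TrivSqZeroExt.algebraMap_eq_inl, hu1]
    rw [mul_assoc, inv_mul_cancel₀ hu2, mul_one]

theorem s56ps_eq_of_not_surjective (DQ : GaloisRep.DeformationRingData 𝒪 ρbar 𝒟)
    (φ φ' : DQ.R →ₐ[𝒪] DualNumber (ResidueField 𝒪))
    (h : ¬ Function.Surjective φ) (h' : ¬ Function.Surjective φ') : φ = φ' := by
  have key : ∀ ψ : DQ.R →ₐ[𝒪] DualNumber (ResidueField 𝒪), ¬ Function.Surjective ψ →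
      ∀ u ∈ maximalIdeal DQ.R, ψ u = 0 := by
    intro ψ hψ u hu
    have h1 : ψ u ∈ maximalIdeal (DualNumber (ResidueField 𝒪)) := by
      haveI := s56ps_isLocalHom DQ ψ
      exact map_nonunit (ψ : DQ.R →+* DualNumber (ResidueField 𝒪)) u hu
    rw [S53.mem_maximalIdeal_dualNumber_iff] at h1
    by_contra hne
    apply hψ
    refine s56ps_surjective_of_snd_ne_zero DQ ψ u h1 ?_
    intro h2
    apply hne
    ext
    · rw [h1, TrivSqZeroExt.fst_zero]
    · rw [h2, TrivSqZeroExt.snd_zero]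
  apply AlgHom.ext
  intro a
  obtain ⟨o, ho⟩ := DQ.residue_surjective (residue DQ.R a)
  have hu : a - algebraMap 𝒪 DQ.R o ∈ maximalIdeal DQ.R := by
    rw [← residue_eq_zero_iff, map_sub, sub_eq_zero]
    exact ho.symm
  have h1 := key φ h _ hu
  have h2 := key φ' h' _ hu
  rw [map_sub, AlgHom.commutes, sub_eq_zero] at h1 h2
  rw [h1, h2]

/-- **Injectivity of the specialisation map** `Hom_𝒪(DQ.R, k[ε]) → {deformations to k[ε]}/≃`. -/
theorem s56ps_spec_inj (DQ : GaloisRep.DeformationRingData 𝒪 ρbar 𝒟)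
    (h𝒟 : ∀ φ : DQ.R →ₐ[𝒪] DualNumber (ResidueField 𝒪), Function.Surjective φ →
      𝒟 (s56ps_spec DQ φ))
    (φ φ' : DQ.R →ₐ[𝒪] DualNumber (ResidueField 𝒪))
    (h : (s56ps_spec DQ φ).IsEquiv (s56ps_spec DQ φ')) : φ = φ' := by
  by_cases h1 : Function.Surjective φ
  · exact s56ps_spec_inj_of_type DQ φ φ' (h𝒟 φ h1) h
  by_cases h2 : Function.Surjective φ'
  · obtain ⟨e⟩ := h
    exact (s56ps_spec_inj_of_type DQ φ' φ (h𝒟 φ' h2) ⟨e.symm⟩).symm
  exact s56ps_eq_of_not_surjective DQ φ φ' h1 h2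

/-- **(PS3)** if every family of `𝒪`-algebra maps `DQ.R → k[ε]` with pairwise inequivalent
specialisations has at most `|k| ^ r` members, then `DQ.R` is a quotient of `𝒪⟦X_1, …, X_r⟧`. -/
theorem s56ps_main [Finite (ResidueField 𝒪)] (DQ : GaloisRep.DeformationRingData 𝒪 ρbar 𝒟)
    (r : ℕ)
    (h𝒟 : ∀ φ : DQ.R →ₐ[𝒪] DualNumber (ResidueField 𝒪), Function.Surjective φ →
      𝒟 (s56ps_spec DQ φ))
    (hcount : ∀ F : Finset (DQ.R →ₐ[𝒪] DualNumber (ResidueField 𝒪)),
      (∀ φ ∈ F, ∀ φ' ∈ F, (s56ps_spec DQ φ).IsEquiv (s56ps_spec DQ φ') → φ = φ') →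
      F.card ≤ Nat.card (ResidueField 𝒪) ^ r) :
    ∃ γ : MvPowerSeries (Fin r) 𝒪 →ₐ[𝒪] DQ.R, Function.Surjective γ :=
  s56ps_surj_of_card_le DQ.residue_surjective r
    (fun F => hcount F (fun φ _ φ' _ h => s56ps_spec_inj DQ h𝒟 φ φ' h))

end Spec

end

end Fermat.Agent.S56
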