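import Mathlib
import Fermat.Agent.S56.PS.Spec
import Fermat.Agent.S56.PS.BaseChangeFlat

/-!
# S56, node (BC), part 3: the two deformation conditions of S56 and the dual numbers

The conditions `strictOrdinaryCondition ∧ unipotent on inertia at Smin` and
`flatCondition ∧ unipotent on inertia at Smin` of the frozen statement S56 pass from the universal
deformation to its specialisations along `φ : DQ.R → k[ε]` (`φ` onto in the flat case). Hence the
hypothesis `h𝒟` of `s56ps_main` holds for both (`s56ps_main_strict`, `s56ps_main_flat`).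
-/

set_option autoImplicit false
set_option linter.style.haveILetI false

open IsLocalRing

namespace Fermat.Agent.S56

section Cond

variable {𝒪 : Type} [CommRing 𝒪] {A B : Type} [CommRing A] [IsLocalRing A] [Algebra 𝒪 A]
  [CommRing B] [IsLocalRing B] [Algebra 𝒪 B] (φ : A →+* B) (hφ : IsLocalHom φ)
  (ρ : GaloisRepAdic A)

theorem s56bc_strictOrdinaryCondition (p : ℕ) (S : Finset ℕ)
    (h : GaloisRep.strictOrdinaryCondition 𝒪 p S ρ) :
    GaloisRep.strictOrdinaryCondition 𝒪 p S (ρ.baseChangeAlong φ hφ) :=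
  ⟨s56bc_det φ hφ ρ p h.1, s56bc_strictOrdinary φ hφ ρ p h.2.1,
    fun q hq hqS => s56bc_unramified φ hφ ρ q (h.2.2 q hq hqS)⟩

theorem s56bc_flatCondition (hsurj : Function.Surjective φ) (p : ℕ) (S : Finset ℕ)
    (h : GaloisRep.flatCondition 𝒪 p S ρ) :
    GaloisRep.flatCondition 𝒪 p S (ρ.baseChangeAlong φ hφ) :=
  ⟨s56bc_det φ hφ ρ p h.1, s56bc_flat φ hφ hsurj ρ p h.2.1,
    fun q hq hqS => s56bc_unramified φ hφ ρ q (h.2.2 q hq hqS)⟩

end Cond

section Main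

variable {𝒪 : Type} [CommRing 𝒪] [IsDomain 𝒪] [IsDiscreteValuationRing 𝒪]
  [IsAdicComplete (maximalIdeal 𝒪) 𝒪] [Finite (ResidueField 𝒪)]
  {ρbar : ResidualGaloisRep (ResidueField 𝒪)}

attribute [local instance] S53.dualNumberAlgebra

/-- **(PS3) for the strict-ordinary half of S56.** -/
theorem s56ps_main_strict (p : ℕ) (Smin Q : Finset ℕ)
    (DQ : GaloisRep.DeformationRingData 𝒪 ρbar (fun _A _ _ _ ρ =>
      GaloisRep.strictOrdinaryCondition 𝒪 p Q ρ ∧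
        ∀ q ∈ Smin, q.Prime → q ≠ p → ρ.IsUnipotentOnInertiaAt q))
    (r : ℕ)
    (hcount : ∀ F : Finset (DQ.R →ₐ[𝒪] DualNumber (ResidueField 𝒪)),
      (∀ φ ∈ F, ∀ φ' ∈ F, (s56ps_spec DQ φ).IsEquiv (s56ps_spec DQ φ') → φ = φ') →
      F.card ≤ Nat.card (ResidueField 𝒪) ^ r) :
    ∃ γ : MvPowerSeries (Fin r) 𝒪 →ₐ[𝒪] DQ.R, Function.Surjective γ :=
  s56ps_main DQ r
    (fun φ _ => ⟨s56bc_strictOrdinaryCondition _ (s56ps_isLocalHom DQ φ) DQ.ρ p Q DQ.isOfType.1,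
      fun q hq hqp hne => s56bc_unipotent _ (s56ps_isLocalHom DQ φ) DQ.ρ q
        (DQ.isOfType.2 q hq hqp hne)⟩)
    hcount

/-- **(PS3) for the flat half of S56.** -/
theorem s56ps_main_flat (p : ℕ) (Smin Q : Finset ℕ)
    (DQ : GaloisRep.DeformationRingData 𝒪 ρbar (fun _A _ _ _ ρ =>
      GaloisRep.flatCondition 𝒪 p Q ρ ∧
        ∀ q ∈ Smin, q.Prime → q ≠ p → ρ.IsUnipotentOnInertiaAt q))
    (r : ℕ)
    (hcount : ∀ F : Finset (DQ.R →ₐ[𝒪] DualNumber (ResidueField 𝒪)),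
      (∀ φ ∈ F, ∀ φ' ∈ F, (s56ps_spec DQ φ).IsEquiv (s56ps_spec DQ φ') → φ = φ') →
      F.card ≤ Nat.card (ResidueField 𝒪) ^ r) :
    ∃ γ : MvPowerSeries (Fin r) 𝒪 →ₐ[𝒪] DQ.R, Function.Surjective γ :=
  s56ps_main DQ r
    (fun φ hφ => ⟨s56bc_flatCondition _ (s56ps_isLocalHom DQ φ) DQ.ρ hφ p Q DQ.isOfType.1,
      fun q hq hqp hne => s56bc_unipotent _ (s56ps_isLocalHom DQ φ) DQ.ρ q
        (DQ.isOfType.2 q hq hqp hne)⟩)
    hcount

end Main

end Fermat.Agent.S56
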