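import Mathlib
import Fermat.Agent.S56.PS.Conditions

/-!
# S56, assembly: S56 from the two Selmer-side counting seams

`s56ps_SelStrict_stmt` / `s56ps_SelFlat_stmt`: the Taylor–Wiles primes exist and, for every
deformation ring `DQ` of the enlarged problem, any family of `𝒪`-algebra maps `DQ.R → k[ε]` with
pairwise inequivalent specialisations has at most `|k| ^ r` members.
`s56ps_top`: the frozen statement S56 follows from these two seams.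
-/

set_option autoImplicit false
set_option linter.style.haveILetI false

open Polynomial IsLocalRing

namespace Fermat.Agent.S56

section Top

variable {𝒪 : Type} [CommRing 𝒪] [IsDomain 𝒪] [IsDiscreteValuationRing 𝒪]
  [IsAdicComplete (maximalIdeal 𝒪) 𝒪] [Finite (ResidueField 𝒪)]

attribute [local instance] S53.dualNumberAlgebra

/-- The Selmer-side seam of the strict-ordinary half of S56. -/
def s56ps_SelStrict_stmt (p : ℕ) (ρbar : ResidualGaloisRep (ResidueField 𝒪)) (S Smin : Finset ℕ) :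
    Prop :=
  ∃ r : ℕ, ∀ n : ℕ, ∃ qv : Fin r → ℕ, Function.Injective qv ∧
    (∀ i, (qv i).Prime ∧ qv i ∉ S ∧ p ^ (n + 1) ∣ qv i - 1) ∧
    (∀ i, ∀ P : ValuationSubring (AlgebraicClosure ℚ), P.LiesOverPrime (qv i) →
      ∀ φ : AlgebraicClosure ℚ ≃ₐ[ℚ] AlgebraicClosure ℚ, P.IsFrobeniusAt φ (qv i) →
        ∃ α β : ResidueField 𝒪, α ≠ β ∧
          LinearMap.charpoly (ρbar.ρ φ) = (X - C α) * (X - C β)) ∧
    ∀ DQ : GaloisRep.DeformationRingData 𝒪 ρbar (fun _A _ _ _ ρ =>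
        GaloisRep.strictOrdinaryCondition 𝒪 p (Smin ∪ Finset.univ.image qv) ρ ∧
          ∀ q ∈ Smin, q.Prime → q ≠ p → ρ.IsUnipotentOnInertiaAt q),
      ∀ F : Finset (DQ.R →ₐ[𝒪] DualNumber (ResidueField 𝒪)),
        (∀ φ ∈ F, ∀ φ' ∈ F, (s56ps_spec DQ φ).IsEquiv (s56ps_spec DQ φ') → φ = φ') →
        F.card ≤ Nat.card (ResidueField 𝒪) ^ r

/-- The Selmer-side seam of the flat half of S56. -/
def s56ps_SelFlat_stmt (p : ℕ) (ρbar : ResidualGaloisRep (ResidueField 𝒪)) (S Smin : Finset ℕ) :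
    Prop :=
  ∃ r : ℕ, ∀ n : ℕ, ∃ qv : Fin r → ℕ, Function.Injective qv ∧
    (∀ i, (qv i).Prime ∧ qv i ∉ S ∧ p ^ (n + 1) ∣ qv i - 1) ∧
    (∀ i, ∀ P : ValuationSubring (AlgebraicClosure ℚ), P.LiesOverPrime (qv i) →
      ∀ φ : AlgebraicClosure ℚ ≃ₐ[ℚ] AlgebraicClosure ℚ, P.IsFrobeniusAt φ (qv i) →
        ∃ α β : ResidueField 𝒪, α ≠ β ∧
          LinearMap.charpoly (ρbar.ρ φ) = (X - C α) * (X - C β)) ∧
    ∀ DQ : GaloisRep.DeformationRingData 𝒪 ρbar (fun _A _ _ _ ρ =>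
        GaloisRep.flatCondition 𝒪 p (Smin ∪ Finset.univ.image qv) ρ ∧
          ∀ q ∈ Smin, q.Prime → q ≠ p → ρ.IsUnipotentOnInertiaAt q),
      ∀ F : Finset (DQ.R →ₐ[𝒪] DualNumber (ResidueField 𝒪)),
        (∀ φ ∈ F, ∀ φ' ∈ F, (s56ps_spec DQ φ).IsEquiv (s56ps_spec DQ φ') → φ = φ') →
        F.card ≤ Nat.card (ResidueField 𝒪) ^ r

/-- **S56 from the two Selmer-side seams.** -/
theorem s56ps_top (p : ℕ) (ρbar : ResidualGaloisRep (ResidueField 𝒪)) (S Smin : Finset ℕ)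
    (h1 : s56ps_SelStrict_stmt p ρbar S Smin) (h2 : s56ps_SelFlat_stmt p ρbar S Smin) :
    (∃ r : ℕ, ∀ n : ℕ, ∃ qv : Fin r → ℕ, Function.Injective qv ∧
      (∀ i, (qv i).Prime ∧ qv i ∉ S ∧ p ^ (n + 1) ∣ qv i - 1) ∧
      (∀ i, ∀ P : ValuationSubring (AlgebraicClosure ℚ), P.LiesOverPrime (qv i) →
        ∀ φ : AlgebraicClosure ℚ ≃ₐ[ℚ] AlgebraicClosure ℚ, P.IsFrobeniusAt φ (qv i) →
          ∃ α β : ResidueField 𝒪, α ≠ β ∧
            LinearMap.charpoly (ρbar.ρ φ) = (X - C α) * (X - C β)) ∧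
      ∀ DQ : GaloisRep.DeformationRingData 𝒪 ρbar (fun _A _ _ _ ρ =>
          GaloisRep.strictOrdinaryCondition 𝒪 p (Smin ∪ Finset.univ.image qv) ρ ∧
            ∀ q ∈ Smin, q.Prime → q ≠ p → ρ.IsUnipotentOnInertiaAt q),
        ∃ γ : MvPowerSeries (Fin r) 𝒪 →ₐ[𝒪] DQ.R, Function.Surjective γ) ∧
    (∃ r : ℕ, ∀ n : ℕ, ∃ qv : Fin r → ℕ, Function.Injective qv ∧
      (∀ i, (qv i).Prime ∧ qv i ∉ S ∧ p ^ (n + 1) ∣ qv i - 1) ∧
      (∀ i, ∀ P : ValuationSubring (AlgebraicClosure ℚ), P.LiesOverPrime (qv i) →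
        ∀ φ : AlgebraicClosure ℚ ≃ₐ[ℚ] AlgebraicClosure ℚ, P.IsFrobeniusAt φ (qv i) →
          ∃ α β : ResidueField 𝒪, α ≠ β ∧
            LinearMap.charpoly (ρbar.ρ φ) = (X - C α) * (X - C β)) ∧
      ∀ DQ : GaloisRep.DeformationRingData 𝒪 ρbar (fun _A _ _ _ ρ =>
          GaloisRep.flatCondition 𝒪 p (Smin ∪ Finset.univ.image qv) ρ ∧
            ∀ q ∈ Smin, q.Prime → q ≠ p → ρ.IsUnipotentOnInertiaAt q),
        ∃ γ : MvPowerSeries (Fin r) 𝒪 →ₐ[𝒪] DQ.R, Function.Surjective γ) := by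
  constructor
  · obtain ⟨r, h⟩ := h1
    refine ⟨r, fun n => ?_⟩
    obtain ⟨qv, ha, hb, hc, hd⟩ := h n
    exact ⟨qv, ha, hb, hc, fun DQ => s56ps_main_strict p Smin _ DQ r (hd DQ)⟩
  · obtain ⟨r, h⟩ := h2
    refine ⟨r, fun n => ?_⟩
    obtain ⟨qv, ha, hb, hc, hd⟩ := h n
    exact ⟨qv, ha, hb, hc, fun DQ => s56ps_main_flat p Smin _ DQ r (hd DQ)⟩

end Top

end Fermat.Agent.S56
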