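import Mathlib
import Fermat.Agent.S53.EvalNilp
import Fermat.Agent.S53.PowerSeriesComplete

/-!
# S56, last step: a complete Noetherian local `𝒪`-algebra whose relative cotangent space is
generated by `r` elements is a quotient of `𝒪⟦X₁,…,X_r⟧`

Pure commutative algebra (Mathlib + `S53/EvalNilp`).  Prefix `s56pz_`.
-/

set_option autoImplicit false

namespace Fermat.Agent.S56

open IsLocalRing MvPowerSeries

section Gens

variable {𝒪 : Type*} [CommRing 𝒪] {R : Type*} [CommRing R] [IsLocalRing R] [Algebra 𝒪 R]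
  {r : ℕ}

/-- The images of `x i ∈ 𝔪_R` in `R ⧸ 𝔪_R ^ n` generate an ideal whose `n`-th power is zero. -/
theorem s56pz_pow_eq_bot (x : Fin r → R) (hx : ∀ i, x i ∈ maximalIdeal R) (n : ℕ) :
    (Ideal.span (Set.range fun i => Ideal.Quotient.mk (maximalIdeal R ^ n) (x i))) ^ n = ⊥ := by
  have h1 : Ideal.span (Set.range fun i => Ideal.Quotient.mk (maximalIdeal R ^ n) (x i)) ≤
      (maximalIdeal R).map (Ideal.Quotient.mk (maximalIdeal R ^ n)) := by
    rw [Ideal.span_le]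
    rintro _ ⟨i, rfl⟩
    exact Ideal.mem_map_of_mem _ (hx i)
  have h2 : ((maximalIdeal R).map (Ideal.Quotient.mk (maximalIdeal R ^ n))) ^ n = ⊥ := by
    rw [← Ideal.map_pow, Ideal.map_quotient_self]
  exact le_bot_iff.mp (h2 ▸ Ideal.pow_right_mono h1 n)

/-- The level-`n` evaluation map `𝒪⟦X⟧ → R ⧸ 𝔪_R ^ n`, `X i ↦ x i`. -/
noncomputable def s56pz_level (x : Fin r → R) (hx : ∀ i, x i ∈ maximalIdeal R) (n : ℕ) :
    MvPowerSeries (Fin r) 𝒪 →ₐ[𝒪] R ⧸ maximalIdeal R ^ n :=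
  Fermat.Agent.S53.evalNilp (𝒪 := 𝒪)
    (fun i => Ideal.Quotient.mk (maximalIdeal R ^ n) (x i)) n (s56pz_pow_eq_bot x hx n)

theorem s56pz_level_X (x : Fin r → R) (hx : ∀ i, x i ∈ maximalIdeal R) (n : ℕ) (i : Fin r) :
    s56pz_level (𝒪 := 𝒪) x hx n (X i) = Ideal.Quotient.mk (maximalIdeal R ^ n) (x i) :=
  Fermat.Agent.S53.evalNilp_X _ _ _ i

theorem s56pz_level_compat (x : Fin r → R) (hx : ∀ i, x i ∈ maximalIdeal R) {m n : ℕ}
    (hle : m ≤ n) :
    (Ideal.Quotient.factorₐ 𝒪 (Ideal.pow_le_pow_right hle)).comp (s56pz_level (𝒪 := 𝒪) x hx n) =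
      s56pz_level x hx m := by
  apply Fermat.Agent.S53.algHom_ext_of_pow_le_ker _ _ n
  · intro f hf
    rw [AlgHom.comp_apply]
    have : s56pz_level (𝒪 := 𝒪) x hx n f = 0 :=
      Fermat.Agent.S53.evalNilp_eq_zero_of_mem _ _ _ f hf
    rw [this, map_zero]
  · intro f hf
    exact Fermat.Agent.S53.evalNilp_eq_zero_of_mem _ _ _ f (Ideal.pow_le_pow_right hle hf)
  · intro i
    rw [AlgHom.comp_apply, s56pz_level_X, s56pz_level_X]
    rfl

variable [IsAdicComplete (maximalIdeal R) R]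

/-- Evaluation of power series at a family `x i ∈ 𝔪_R` of a complete local ring. -/
noncomputable def s56pz_eval (x : Fin r → R) (hx : ∀ i, x i ∈ maximalIdeal R) :
    MvPowerSeries (Fin r) 𝒪 →ₐ[𝒪] R :=
  IsAdicComplete.liftAlgHom (maximalIdeal R) (fun n => s56pz_level (𝒪 := 𝒪) x hx n)
    (fun hle => s56pz_level_compat x hx hle)

theorem s56pz_mk_eval (x : Fin r → R) (hx : ∀ i, x i ∈ maximalIdeal R) (n : ℕ)
    (f : MvPowerSeries (Fin r) 𝒪) :
    Ideal.Quotient.mk (maximalIdeal R ^ n) (s56pz_eval (𝒪 := 𝒪) x hx f) =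
      s56pz_level x hx n f :=
  IsAdicComplete.mk_liftAlgHom _ _ _ _ _

theorem s56pz_eval_X (x : Fin r → R) (hx : ∀ i, x i ∈ maximalIdeal R) (i : Fin r) :
    s56pz_eval (𝒪 := 𝒪) x hx (X i) = x i := by
  rw [IsHausdorff.eq_iff_smodEq (I := maximalIdeal R)]
  intro n
  rw [SModEq, smul_eq_mul, Ideal.mul_top]
  have := s56pz_mk_eval (𝒪 := 𝒪) x hx n (X i)
  rw [s56pz_level_X] at this
  exact this

end Gens

section Surj

variable {𝒪 : Type*} [CommRing 𝒪] [IsDomain 𝒪] [IsDiscreteValuationRing 𝒪]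
  [IsAdicComplete (maximalIdeal 𝒪) 𝒪]
  {R : Type*} [CommRing R] [IsLocalRing R] [IsNoetherianRing R]
  [IsAdicComplete (maximalIdeal R) R] [Algebra 𝒪 R] [IsLocalHom (algebraMap 𝒪 R)] {r : ℕ}

omit [IsDomain 𝒪] [IsDiscreteValuationRing 𝒪] [IsAdicComplete (maximalIdeal 𝒪) 𝒪]
  [IsNoetherianRing R] [IsAdicComplete (maximalIdeal R) R] in
theorem s56pz_map_maximalIdeal_le [IsLocalRing 𝒪] :
    (maximalIdeal 𝒪).map (algebraMap 𝒪 R) ≤ maximalIdeal R := by
  rw [Ideal.map_le_iff_le_comap]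
  intro a ha
  rw [Ideal.mem_comap, mem_maximalIdeal, mem_nonunits_iff]
  intro hu
  exact ha (isUnit_of_map_unit (algebraMap 𝒪 R) a hu)

omit [IsAdicComplete (maximalIdeal 𝒪) 𝒪] [IsAdicComplete (maximalIdeal R) R]
  [IsLocalHom (algebraMap 𝒪 R)] in
/-- Nakayama: generators of the relative cotangent space generate `𝔪_R` together with `𝔪_𝒪`. -/
theorem s56pz_maximalIdeal_le (x : Fin r → R)
    (hgen : maximalIdeal R ≤ Ideal.span (Set.range x) ⊔
      (maximalIdeal 𝒪).map (algebraMap 𝒪 R) ⊔ maximalIdeal R ^ 2) :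
    maximalIdeal R ≤ Ideal.span (Set.range x) ⊔ (maximalIdeal 𝒪).map (algebraMap 𝒪 R) := by
  refine Submodule.le_of_le_smul_of_le_jacobson_bot (I := maximalIdeal R)
    (IsNoetherian.noetherian _) (maximalIdeal_le_jacobson ⊥) ?_
  rwa [smul_eq_mul, ← pow_two]

omit [IsAdicComplete (maximalIdeal 𝒪) 𝒪] [IsNoetherianRing R] [IsLocalHom (algebraMap 𝒪 R)] in
theorem s56pz_map_eq (x : Fin r → R) (hx : ∀ i, x i ∈ maximalIdeal R) :
    (maximalIdeal (MvPowerSeries (Fin r) 𝒪)).map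
        ((s56pz_eval (𝒪 := 𝒪) x hx : MvPowerSeries (Fin r) 𝒪 →ₐ[𝒪] R) :
          MvPowerSeries (Fin r) 𝒪 →+* R) =
      Ideal.span (Set.range x) ⊔ (maximalIdeal 𝒪).map (algebraMap 𝒪 R) := by
  rw [Fermat.Agent.S53.maximalIdeal_mvPowerSeries_eq, Ideal.map_sup, Ideal.map_span,
    Ideal.map_map, ← Set.range_comp]
  congr 2
  · congr 1
    funext i
    exact s56pz_eval_X x hx i
  · exact (s56pz_eval (𝒪 := 𝒪) x hx).comp_algebraMap

/-- **[S56-PS] (2)**: if `x₁,…,x_r ∈ 𝔪_R` generate `𝔪_R` modulo `𝔪_𝒪 R + 𝔪_R²`, then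
`𝒪⟦X₁,…,X_r⟧ → R`, `X i ↦ x i`, is surjective. -/
theorem s56pz_surjective (hres : Function.Surjective (residue R ∘ algebraMap 𝒪 R))
    (x : Fin r → R) (hx : ∀ i, x i ∈ maximalIdeal R)
    (hgen : maximalIdeal R ≤ Ideal.span (Set.range x) ⊔
      (maximalIdeal 𝒪).map (algebraMap 𝒪 R) ⊔ maximalIdeal R ^ 2) :
    Function.Surjective (s56pz_eval (𝒪 := 𝒪) x hx) := by
  have hm := s56pz_maximalIdeal_le x hgen
  have hle : Ideal.span (Set.range x) ⊔ (maximalIdeal 𝒪).map (algebraMap 𝒪 R) ≤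
      maximalIdeal R := by
    refine sup_le ?_ s56pz_map_maximalIdeal_le
    rw [Ideal.span_le]
    rintro _ ⟨i, rfl⟩
    exact hx i
  have hmap := s56pz_map_eq (𝒪 := 𝒪) x hx
  set γ : MvPowerSeries (Fin r) 𝒪 →+* R :=
    ((s56pz_eval (𝒪 := 𝒪) x hx : MvPowerSeries (Fin r) 𝒪 →ₐ[𝒪] R) :
      MvPowerSeries (Fin r) 𝒪 →+* R) with hγ
  have hmap' : (maximalIdeal (MvPowerSeries (Fin r) 𝒪)).map γ = maximalIdeal R :=
    le_antisymm (hmap ▸ hle) (hmap ▸ hm)
  have : IsHausdorff ((maximalIdeal (MvPowerSeries (Fin r) 𝒪)).map γ) R := by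
    rw [hmap']
    infer_instance
  have hsurj : Function.Surjective
      ((Ideal.Quotient.mk ((maximalIdeal (MvPowerSeries (Fin r) 𝒪)).map γ)).comp γ) := by
    intro y
    obtain ⟨z, rfl⟩ := Ideal.Quotient.mk_surjective y
    obtain ⟨a, ha⟩ := hres (residue R z)
    refine ⟨algebraMap 𝒪 _ a, ?_⟩
    rw [RingHom.comp_apply, Ideal.Quotient.eq, hmap']
    have h1 : γ (algebraMap 𝒪 (MvPowerSeries (Fin r) 𝒪) a) = algebraMap 𝒪 R a :=
      (s56pz_eval (𝒪 := 𝒪) x hx).commutes a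
    rw [h1]
    have h2 : residue R (algebraMap 𝒪 R a - z) = 0 := by
      rw [map_sub]
      exact sub_eq_zero.mpr ha
    exact (residue_eq_zero_iff _).mp h2
  exact surjective_of_mk_map_comp_surjective (I := maximalIdeal (MvPowerSeries (Fin r) 𝒪)) γ hsurj

end Surj

end Fermat.Agent.S56
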