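import Mathlib
import Fermat.Agent.S56.PS.PowSurj

/-!
# S56, last step, counting form

`R` a complete Noetherian local `𝒪`-algebra with residue field `k = ResidueField 𝒪` (finite).
If there are at most `|k| ^ r` `𝒪`-algebra maps `R → k[ε]`, then `R` is a quotient of
`𝒪⟦X₁,…,X_r⟧`.  Prefix `s56pz_`.
-/

set_option autoImplicit false

namespace Fermat.Agent.S56

open IsLocalRing MvPowerSeries

section Card

variable {𝒪 : Type*} [CommRing 𝒪] [IsLocalRing 𝒪]
  {R : Type*} [CommRing R] [IsLocalRing R] [Algebra 𝒪 R] [IsLocalHom (algebraMap 𝒪 R)]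

/-- The relative square-zero ideal `𝔪_𝒪 R + 𝔪_R²`. -/
def s56pz_I0 (𝒪 : Type*) [CommRing 𝒪] [IsLocalRing 𝒪] (R : Type*) [CommRing R] [IsLocalRing R]
    [Algebra 𝒪 R] : Ideal R :=
  (maximalIdeal 𝒪).map (algebraMap 𝒪 R) ⊔ maximalIdeal R ^ 2

theorem s56pz_I0_le : s56pz_I0 𝒪 R ≤ maximalIdeal R := by
  refine sup_le ?_ (Ideal.pow_le_self two_ne_zero)
  rw [Ideal.map_le_iff_le_comap]
  intro a ha
  rw [Ideal.mem_comap, mem_maximalIdeal, mem_nonunits_iff]
  intro hu
  exact ha (isUnit_of_map_unit (algebraMap 𝒪 R) a hu)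

variable (hres : Function.Surjective (residue R ∘ algebraMap 𝒪 R))

/-- The residue fields of `𝒪` and `R` are identified. -/
noncomputable def s56pz_e (hres : Function.Surjective (residue R ∘ algebraMap 𝒪 R)) :
    ResidueField 𝒪 ≃+* ResidueField R :=
  RingEquiv.ofBijective (ResidueField.map (algebraMap 𝒪 R))
    ⟨(ResidueField.map (algebraMap 𝒪 R)).injective, by
      intro y
      obtain ⟨a, ha⟩ := hres y
      exact ⟨residue 𝒪 a, by rw [ResidueField.map_residue]; exact ha⟩⟩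

/-- The residue map `R → k = ResidueField 𝒪`. -/
noncomputable def s56pz_res (hres : Function.Surjective (residue R ∘ algebraMap 𝒪 R)) :
    R →+* ResidueField 𝒪 :=
  ((s56pz_e hres).symm : ResidueField R →+* ResidueField 𝒪).comp (residue R)

theorem s56pz_res_algebraMap (a : 𝒪) : s56pz_res hres (algebraMap 𝒪 R a) = residue 𝒪 a := by
  unfold s56pz_res
  rw [RingHom.comp_apply, RingHom.coe_coe, RingEquiv.symm_apply_eq]
  show residue R (algebraMap 𝒪 R a) = ResidueField.map (algebraMap 𝒪 R) (residue 𝒪 a)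
  rw [ResidueField.map_residue]

theorem s56pz_res_eq_zero_iff (z : R) : s56pz_res hres z = 0 ↔ z ∈ maximalIdeal R := by
  unfold s56pz_res
  rw [RingHom.comp_apply, RingHom.coe_coe, map_eq_zero_iff _ (s56pz_e hres).symm.injective,
    residue_eq_zero_iff]

theorem s56pz_res_surjective : Function.Surjective (s56pz_res hres) := by
  intro c
  obtain ⟨a, rfl⟩ := residue_surjective c
  exact ⟨algebraMap 𝒪 R a, s56pz_res_algebraMap hres a⟩

include hres in
/-- Every element of `R` is a constant from `𝒪` plus an element of `𝔪_R`. -/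
theorem s56pz_exists_const (z : R) : ∃ a : 𝒪, z - algebraMap 𝒪 R a ∈ maximalIdeal R := by
  obtain ⟨a, ha⟩ := residue_surjective (s56pz_res hres z)
  refine ⟨a, ?_⟩
  rw [← s56pz_res_eq_zero_iff hres, map_sub, s56pz_res_algebraMap, ha, sub_self]

end Card

section Tangent

variable {𝒪 : Type*} [CommRing 𝒪] [IsLocalRing 𝒪]
  {R : Type*} [CommRing R] [IsLocalRing R] [Algebra 𝒪 R] [IsLocalHom (algebraMap 𝒪 R)]

/-- `k = ResidueField 𝒪 → R ⧸ (𝔪_𝒪 R + 𝔪_R²)`. -/
noncomputable def s56pz_kToQ (𝒪 : Type*) [CommRing 𝒪] [IsLocalRing 𝒪] (R : Type*) [CommRing R]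
    [IsLocalRing R] [Algebra 𝒪 R] : ResidueField 𝒪 →+* (R ⧸ s56pz_I0 𝒪 R) :=
  Ideal.Quotient.lift (maximalIdeal 𝒪)
    ((Ideal.Quotient.mk (s56pz_I0 𝒪 R)).comp (algebraMap 𝒪 R)) (by
      intro a ha
      rw [RingHom.comp_apply, Ideal.Quotient.eq_zero_iff_mem]
      exact Ideal.mem_sup_left (Ideal.mem_map_of_mem _ ha))

omit [IsLocalHom (algebraMap 𝒪 R)] in
theorem s56pz_kToQ_residue (a : 𝒪) :
    s56pz_kToQ 𝒪 R (residue 𝒪 a) = Ideal.Quotient.mk (s56pz_I0 𝒪 R) (algebraMap 𝒪 R a) := rfl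

/-- The `k`-algebra structure on `Q = R ⧸ (𝔪_𝒪 R + 𝔪_R²)`. -/
@[reducible] noncomputable def s56pz_algQ (𝒪 : Type*) [CommRing 𝒪] [IsLocalRing 𝒪] (R : Type*) [CommRing R]
    [IsLocalRing R] [Algebra 𝒪 R] : Algebra (ResidueField 𝒪) (R ⧸ s56pz_I0 𝒪 R) :=
  (s56pz_kToQ 𝒪 R).toAlgebra

attribute [local instance] s56pz_algQ

omit [IsLocalHom (algebraMap 𝒪 R)] in
theorem s56pz_smul_def (c : ResidueField 𝒪) (q : R ⧸ s56pz_I0 𝒪 R) :
    c • q = s56pz_kToQ 𝒪 R c * q := rfl

variable (hres : Function.Surjective (residue R ∘ algebraMap 𝒪 R))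

/-- The residue map on `Q`. -/
noncomputable def s56pz_resQ (hres : Function.Surjective (residue R ∘ algebraMap 𝒪 R)) :
    (R ⧸ s56pz_I0 𝒪 R) →+* ResidueField 𝒪 :=
  Ideal.Quotient.lift (s56pz_I0 𝒪 R) (s56pz_res hres)
    (fun z hz => (s56pz_res_eq_zero_iff hres z).2 (s56pz_I0_le hz))

theorem s56pz_resQ_mk (z : R) :
    s56pz_resQ hres (Ideal.Quotient.mk (s56pz_I0 𝒪 R) z) = s56pz_res hres z := rfl

theorem s56pz_resQ_kToQ (c : ResidueField 𝒪) : s56pz_resQ hres (s56pz_kToQ 𝒪 R c) = c := by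
  obtain ⟨a, rfl⟩ := residue_surjective c
  rw [s56pz_kToQ_residue, s56pz_resQ_mk, s56pz_res_algebraMap]

/-- The tangent subspace `𝔫 = 𝔪_R / (𝔪_𝒪 R + 𝔪_R²)` of `Q`, as a `k`-subspace. -/
noncomputable def s56pz_n (hres : Function.Surjective (residue R ∘ algebraMap 𝒪 R)) :
    Submodule (ResidueField 𝒪) (R ⧸ s56pz_I0 𝒪 R) where
  carrier := {q | s56pz_resQ hres q = 0}
  add_mem' := by
    intro a b ha hb
    simp only [Set.mem_ofPred_eq] at ha hb ⊢
    rw [map_add, ha, hb, add_zero]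
  zero_mem' := by simp
  smul_mem' := by
    intro c q hq
    simp only [Set.mem_ofPred_eq] at hq ⊢
    rw [s56pz_smul_def, map_mul, hq, mul_zero]

theorem s56pz_mem_n (q : R ⧸ s56pz_I0 𝒪 R) : q ∈ s56pz_n hres ↔ s56pz_resQ hres q = 0 := Iff.rfl

theorem s56pz_mk_mem_n (z : R) :
    Ideal.Quotient.mk (s56pz_I0 𝒪 R) z ∈ s56pz_n hres ↔ z ∈ maximalIdeal R := by
  rw [s56pz_mem_n, s56pz_resQ_mk, s56pz_res_eq_zero_iff]

/-- `𝔫² = 0`. -/
theorem s56pz_n_mul {q q' : R ⧸ s56pz_I0 𝒪 R} (hq : q ∈ s56pz_n hres) (hq' : q' ∈ s56pz_n hres) :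
    q * q' = 0 := by
  obtain ⟨z, rfl⟩ := Ideal.Quotient.mk_surjective q
  obtain ⟨z', rfl⟩ := Ideal.Quotient.mk_surjective q'
  rw [s56pz_mk_mem_n] at hq hq'
  rw [← map_mul, Ideal.Quotient.eq_zero_iff_mem]
  refine Ideal.mem_sup_right ?_
  rw [pow_two]
  exact Ideal.mul_mem_mul hq hq'

/-- The projection `R → 𝔫`, `z ↦ z̄ - (res z)·1`. -/
noncomputable def s56pz_pr (hres : Function.Surjective (residue R ∘ algebraMap 𝒪 R)) (z : R) :
    s56pz_n hres :=
  ⟨Ideal.Quotient.mk (s56pz_I0 𝒪 R) z - s56pz_kToQ 𝒪 R (s56pz_res hres z), by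
    rw [s56pz_mem_n, map_sub, s56pz_resQ_mk, s56pz_resQ_kToQ, sub_self]⟩

theorem s56pz_pr_coe (z : R) :
    ((s56pz_pr hres z : s56pz_n hres) : R ⧸ s56pz_I0 𝒪 R) =
      Ideal.Quotient.mk (s56pz_I0 𝒪 R) z - s56pz_kToQ 𝒪 R (s56pz_res hres z) := rfl

theorem s56pz_pr_add (z z' : R) : s56pz_pr hres (z + z') = s56pz_pr hres z + s56pz_pr hres z' := by
  apply Subtype.ext
  rw [Submodule.coe_add, s56pz_pr_coe, s56pz_pr_coe, s56pz_pr_coe, map_add, map_add, map_add]
  ring

theorem s56pz_pr_mul (z z' : R) :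
    s56pz_pr hres (z * z') =
      s56pz_res hres z • s56pz_pr hres z' + s56pz_res hres z' • s56pz_pr hres z := by
  apply Subtype.ext
  have h0 := s56pz_n_mul hres (s56pz_pr hres z).2 (s56pz_pr hres z').2
  rw [s56pz_pr_coe, s56pz_pr_coe] at h0
  rw [Submodule.coe_add, Submodule.coe_smul, Submodule.coe_smul, s56pz_smul_def, s56pz_smul_def,
    s56pz_pr_coe, s56pz_pr_coe, s56pz_pr_coe, map_mul, map_mul, map_mul]
  linear_combination h0

theorem s56pz_pr_algebraMap (a : 𝒪) : s56pz_pr hres (algebraMap 𝒪 R a) = 0 := by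
  apply Subtype.ext
  rw [s56pz_pr_coe, s56pz_res_algebraMap, s56pz_kToQ_residue, sub_self]
  rfl

theorem s56pz_pr_of_mem {z : R} (hz : z ∈ maximalIdeal R) :
    ((s56pz_pr hres z : s56pz_n hres) : R ⧸ s56pz_I0 𝒪 R) =
      Ideal.Quotient.mk (s56pz_I0 𝒪 R) z := by
  rw [s56pz_pr_coe, (s56pz_res_eq_zero_iff hres z).2 hz, map_zero, sub_zero]

theorem s56pz_pr_surjective : Function.Surjective (s56pz_pr hres) := by
  rintro ⟨q, hq⟩
  obtain ⟨z, rfl⟩ := Ideal.Quotient.mk_surjective q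
  refine ⟨z, Subtype.ext ?_⟩
  exact s56pz_pr_of_mem hres ((s56pz_mk_mem_n hres z).1 hq)

end Tangent

section Hom

variable {𝒪 : Type*} [CommRing 𝒪] [IsLocalRing 𝒪]
  {R : Type*} [CommRing R] [IsLocalRing R] [Algebra 𝒪 R] [IsLocalHom (algebraMap 𝒪 R)]
  [Algebra 𝒪 (DualNumber (ResidueField 𝒪))]
  (halg : ∀ a : 𝒪, algebraMap 𝒪 (DualNumber (ResidueField 𝒪)) a =
    TrivSqZeroExt.inl (residue 𝒪 a))
  (hres : Function.Surjective (residue R ∘ algebraMap 𝒪 R))

attribute [local instance] s56pz_algQ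

/-- The `𝒪`-algebra map `R → k[ε]` attached to a functional on the tangent space. -/
noncomputable def s56pz_hom (f : s56pz_n hres →ₗ[ResidueField 𝒪] ResidueField 𝒪) :
    R →ₐ[𝒪] DualNumber (ResidueField 𝒪) where
  toFun z := TrivSqZeroExt.inl (s56pz_res hres z) + TrivSqZeroExt.inr (f (s56pz_pr hres z))
  map_one' := by
    have h1 : s56pz_pr hres (1 : R) = 0 := by
      have := s56pz_pr_algebraMap hres (1 : 𝒪)
      rwa [map_one] at this
    rw [h1, map_zero, map_one, TrivSqZeroExt.inr_zero, add_zero, TrivSqZeroExt.inl_one]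
  map_mul' := by
    intro z z'
    rw [s56pz_pr_mul, map_add, map_smul, map_smul, map_mul]
    ext
    · simp
    · simp [mul_comm]
  map_zero' := by
    have h0 : s56pz_pr hres (0 : R) = 0 := by
      have := s56pz_pr_algebraMap hres (0 : 𝒪)
      rwa [map_zero] at this
    rw [h0, map_zero, map_zero, TrivSqZeroExt.inr_zero, add_zero, TrivSqZeroExt.inl_zero]
  map_add' := by
    intro z z'
    rw [s56pz_pr_add, map_add, map_add, TrivSqZeroExt.inl_add, TrivSqZeroExt.inr_add]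
    abel
  commutes' := by
    intro a
    rw [s56pz_pr_algebraMap, map_zero, TrivSqZeroExt.inr_zero, add_zero, s56pz_res_algebraMap,
      halg]

theorem s56pz_hom_apply (f : s56pz_n hres →ₗ[ResidueField 𝒪] ResidueField 𝒪) (z : R) :
    s56pz_hom halg hres f z =
      TrivSqZeroExt.inl (s56pz_res hres z) + TrivSqZeroExt.inr (f (s56pz_pr hres z)) := rfl

theorem s56pz_hom_injective : Function.Injective (s56pz_hom halg hres) := by
  intro f g hfg
  apply LinearMap.ext
  intro n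
  obtain ⟨z, rfl⟩ := s56pz_pr_surjective hres n
  have h := congrArg TrivSqZeroExt.snd (DFunLike.congr_fun hfg z)
  rw [s56pz_hom_apply, s56pz_hom_apply] at h
  simpa using h

end Hom

section Count

variable {𝒪 : Type*} [CommRing 𝒪] [IsLocalRing 𝒪]
  {R : Type*} [CommRing R] [IsLocalRing R] [Algebra 𝒪 R] [IsLocalHom (algebraMap 𝒪 R)]
  [Algebra 𝒪 (DualNumber (ResidueField 𝒪))]
  (halg : ∀ a : 𝒪, algebraMap 𝒪 (DualNumber (ResidueField 𝒪)) a =
    TrivSqZeroExt.inl (residue 𝒪 a))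
  (hres : Function.Surjective (residue R ∘ algebraMap 𝒪 R))

attribute [local instance] s56pz_algQ

include halg hres in
/-- Every `𝒪`-algebra map `R → k[ε]` lies over the residue map. -/
theorem s56pz_fst_apply (φ : R →ₐ[𝒪] DualNumber (ResidueField 𝒪)) (z : R) :
    TrivSqZeroExt.fst (φ z) = s56pz_res hres z := by
  have key : ∀ m ∈ maximalIdeal R, TrivSqZeroExt.fst (φ m) = 0 := by
    intro m hm
    by_contra hne
    obtain ⟨a, ha⟩ := residue_surjective (TrivSqZeroExt.fst (φ m))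
    have hau : IsUnit a := by
      by_contra hnu
      have : residue 𝒪 a = 0 := (residue_eq_zero_iff a).2 hnu
      exact hne (ha ▸ this)
    have hu : IsUnit (algebraMap 𝒪 R a - m) := by
      by_contra hnu
      have h1 : algebraMap 𝒪 R a - m ∈ maximalIdeal R := hnu
      have h2 : algebraMap 𝒪 R a ∈ maximalIdeal R := by
        have := Ideal.add_mem _ h1 hm
        rwa [sub_add_cancel] at this
      exact h2 (hau.map (algebraMap 𝒪 R))
    have h3 : IsUnit (TrivSqZeroExt.fst (φ (algebraMap 𝒪 R a - m))) :=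
      (TrivSqZeroExt.isUnit_iff_isUnit_fst).1 (hu.map φ)
    rw [map_sub, AlgHom.commutes, halg, TrivSqZeroExt.fst_sub, TrivSqZeroExt.fst_inl, ha,
      sub_self] at h3
    exact not_isUnit_zero h3
  obtain ⟨a, ha⟩ := s56pz_exists_const hres z
  have h1 : z = algebraMap 𝒪 R a + (z - algebraMap 𝒪 R a) := by ring
  have h2 : s56pz_res hres z = residue 𝒪 a := by
    have := (s56pz_res_eq_zero_iff hres _).2 ha
    rw [map_sub, s56pz_res_algebraMap, sub_eq_zero] at this
    exact this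
  rw [h2, h1, map_add, AlgHom.commutes, halg, TrivSqZeroExt.fst_add, TrivSqZeroExt.fst_inl,
    key _ ha, add_zero]

include halg hres in
/-- Every `𝒪`-algebra map `R → k[ε]` kills `𝔪_𝒪 R + 𝔪_R²`. -/
theorem s56pz_hom_kills (φ : R →ₐ[𝒪] DualNumber (ResidueField 𝒪)) :
    s56pz_I0 𝒪 R ≤ RingHom.ker (φ : R →+* DualNumber (ResidueField 𝒪)) := by
  have hfst : ∀ m ∈ maximalIdeal R, TrivSqZeroExt.fst (φ m) = 0 := fun m hm => by
    rw [s56pz_fst_apply halg hres, (s56pz_res_eq_zero_iff hres m).2 hm]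
  refine sup_le ?_ ?_
  · rw [Ideal.map_le_iff_le_comap]
    intro a ha
    rw [Ideal.mem_comap, RingHom.mem_ker, RingHom.coe_coe, AlgHom.commutes, halg,
      (residue_eq_zero_iff a).2 ha, TrivSqZeroExt.inl_zero]
  · rw [pow_two, Ideal.mul_le]
    intro m hm m' hm'
    rw [RingHom.mem_ker, RingHom.coe_coe, map_mul]
    ext
    · simp [hfst m hm]
    · simp [hfst m hm, hfst m' hm']

variable [Finite (ResidueField 𝒪)] [IsNoetherianRing R]

omit [Algebra 𝒪 (DualNumber (ResidueField 𝒪))] in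
include hres in
theorem s56pz_finite_Q : Finite (R ⧸ s56pz_I0 𝒪 R) := by
  have h1 : Finite (R ⧸ maximalIdeal R) :=
    Finite.of_equiv (ResidueField 𝒪) (s56pz_e hres).toEquiv
  have h2 : Finite (R ⧸ maximalIdeal R ^ 2) :=
    Ideal.finite_quotient_pow (IsNoetherian.noetherian _) 2
  have hle : maximalIdeal R ^ 2 ≤ s56pz_I0 𝒪 R := le_sup_right
  exact Finite.of_surjective (Ideal.Quotient.factor hle) (Ideal.Quotient.factor_surjective hle)

instance s56pz_finite_dualNumber : Finite (DualNumber (ResidueField 𝒪)) :=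
  inferInstanceAs (Finite (ResidueField 𝒪 × ResidueField 𝒪))

include halg hres in
/-- There are only finitely many `𝒪`-algebra maps `R → k[ε]`. -/
theorem s56pz_finite_hom : Finite (R →ₐ[𝒪] DualNumber (ResidueField 𝒪)) := by
  have := s56pz_finite_Q (𝒪 := 𝒪) (R := R) hres
  let F : (R →ₐ[𝒪] DualNumber (ResidueField 𝒪)) →
      ((R ⧸ s56pz_I0 𝒪 R) → DualNumber (ResidueField 𝒪)) := fun φ =>
    Ideal.Quotient.lift (s56pz_I0 𝒪 R) (φ : R →+* DualNumber (ResidueField 𝒪))
      (fun z hz => s56pz_hom_kills halg hres φ hz)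
  refine Finite.of_injective F ?_
  intro φ ψ h
  apply AlgHom.ext
  intro z
  have := congrFun h (Ideal.Quotient.mk _ z)
  simp only [F] at this
  exact this

include halg hres in
/-- The tangent space has dimension at most `r` if there are at most `|k|^r` maps to `k[ε]`. -/
theorem s56pz_finrank_le (r : ℕ)
    (hcard : Nat.card (R →ₐ[𝒪] DualNumber (ResidueField 𝒪)) ≤ Nat.card (ResidueField 𝒪) ^ r) :
    Module.finrank (ResidueField 𝒪) (s56pz_n hres) ≤ r := by
  have hQ := s56pz_finite_Q (𝒪 := 𝒪) (R := R) hres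
  have hH := s56pz_finite_hom (R := R) halg hres
  have hfin : Module.Finite (ResidueField 𝒪) (s56pz_n hres) := Module.Finite.of_finite
  have h1 : Nat.card (Module.Dual (ResidueField 𝒪) (s56pz_n hres)) =
      Nat.card (ResidueField 𝒪) ^ Module.finrank (ResidueField 𝒪) (s56pz_n hres) := by
    rw [Module.natCard_eq_pow_finrank (K := ResidueField 𝒪), Subspace.dual_finrank_eq]
  have h2 : Nat.card (Module.Dual (ResidueField 𝒪) (s56pz_n hres)) ≤
      Nat.card (R →ₐ[𝒪] DualNumber (ResidueField 𝒪)) :=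
    Nat.card_le_card_of_injective _ (s56pz_hom_injective halg hres)
  have h3 := (h1 ▸ h2).trans hcard
  exact (Nat.pow_le_pow_iff_right Finite.one_lt_card).1 h3

end Count

section Main

variable {𝒪 : Type*} [CommRing 𝒪] [IsLocalRing 𝒪]
  {R : Type*} [CommRing R] [IsLocalRing R] [Algebra 𝒪 R] [IsLocalHom (algebraMap 𝒪 R)]
  (hres : Function.Surjective (residue R ∘ algebraMap 𝒪 R))

attribute [local instance] s56pz_algQ

include hres in
/-- Every element of the tangent space is the class of an element of `𝔪_R`. -/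
theorem s56pz_exists_lift (n : s56pz_n hres) :
    ∃ z ∈ maximalIdeal R, Ideal.Quotient.mk (s56pz_I0 𝒪 R) z = (n : R ⧸ s56pz_I0 𝒪 R) := by
  obtain ⟨q, hq⟩ := n
  obtain ⟨z, rfl⟩ := Ideal.Quotient.mk_surjective q
  exact ⟨z, (s56pz_mk_mem_n hres z).1 hq, rfl⟩

variable [Finite (ResidueField 𝒪)] [IsNoetherianRing R]

include hres in
/-- If the tangent space has dimension `≤ r`, then `r` elements of `𝔪_R` generate `𝔪_R` modulo
`𝔪_𝒪 R + 𝔪_R²`. -/
theorem s56pz_exists_gens (r : ℕ)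
    (hr : Module.finrank (ResidueField 𝒪) (s56pz_n hres) ≤ r) :
    ∃ x : Fin r → R, (∀ i, x i ∈ maximalIdeal R) ∧
      maximalIdeal R ≤ Ideal.span (Set.range x) ⊔
        (maximalIdeal 𝒪).map (algebraMap 𝒪 R) ⊔ maximalIdeal R ^ 2 := by
  have hQ := s56pz_finite_Q (𝒪 := 𝒪) (R := R) hres
  have hfin : Module.Finite (ResidueField 𝒪) (s56pz_n hres) := Module.Finite.of_finite
  set d := Module.finrank (ResidueField 𝒪) (s56pz_n hres) with hd
  let b : Module.Basis (Fin d) (ResidueField 𝒪) (s56pz_n hres) :=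
    Module.finBasis (ResidueField 𝒪) (s56pz_n hres)
  choose z hz hzb using fun j : Fin d => s56pz_exists_lift hres (b j)
  refine ⟨fun i => if h : i.val < d then z ⟨i.val, h⟩ else 0, ?_, ?_⟩
  · intro i
    by_cases h : i.val < d
    · simp only [h, dite_true]
      exact hz _
    · simp only [h, dite_false]
      exact Ideal.zero_mem _
  · intro m hm
    -- the class of `m` in the tangent space
    have hmn : Ideal.Quotient.mk (s56pz_I0 𝒪 R) m ∈ s56pz_n hres := (s56pz_mk_mem_n hres m).2 hm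
    set n : s56pz_n hres := ⟨Ideal.Quotient.mk (s56pz_I0 𝒪 R) m, hmn⟩ with hn
    have hsum := b.sum_repr n
    choose a ha using fun j : Fin d => residue_surjective (b.repr n j)
    -- `m - ∑ a_j z_j ∈ I₀`
    have hI : m - ∑ j : Fin d, algebraMap 𝒪 R (a j) * z j ∈ s56pz_I0 𝒪 R := by
      rw [← Ideal.Quotient.eq_zero_iff_mem, map_sub, map_sum, sub_eq_zero]
      have h1 := congrArg (fun t : s56pz_n hres => (t : R ⧸ s56pz_I0 𝒪 R)) hsum
      simp only [Submodule.coe_sum, Submodule.coe_smul] at h1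
      rw [hn] at h1
      simp only at h1
      rw [← h1]
      refine Finset.sum_congr rfl fun j _ => ?_
      rw [map_mul, hzb j, s56pz_smul_def, ← ha j, s56pz_kToQ_residue]
    have hsp : ∑ j : Fin d, algebraMap 𝒪 R (a j) * z j ∈
        Ideal.span (Set.range fun i : Fin r => if h : i.val < d then z ⟨i.val, h⟩ else 0) := by
      refine Ideal.sum_mem _ fun j _ => Ideal.mul_mem_left _ _ (Ideal.subset_span ?_)
      refine ⟨⟨j.val, lt_of_lt_of_le j.isLt hr⟩, ?_⟩
      simp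
    have : m = ∑ j : Fin d, algebraMap 𝒪 R (a j) * z j +
        (m - ∑ j : Fin d, algebraMap 𝒪 R (a j) * z j) := by ring
    rw [this, sup_assoc]
    exact Ideal.add_mem _ (Ideal.mem_sup_left hsp) (Ideal.mem_sup_right hI)

end Main

section Final

variable {𝒪 : Type*} [CommRing 𝒪] [IsDomain 𝒪] [IsDiscreteValuationRing 𝒪]
  [IsAdicComplete (maximalIdeal 𝒪) 𝒪] [Finite (ResidueField 𝒪)]
  {R : Type*} [CommRing R] [IsLocalRing R] [IsNoetherianRing R]
  [IsAdicComplete (maximalIdeal R) R] [Algebra 𝒪 R] [IsLocalHom (algebraMap 𝒪 R)]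
  [Algebra 𝒪 (DualNumber (ResidueField 𝒪))]

/-- **[S56-PS] (3)**: the last step of S56.  `R` a complete Noetherian local `𝒪`-algebra with
residue field `k = ResidueField 𝒪` finite.  If there are at most `|k| ^ r` `𝒪`-algebra maps
`R → k[ε]`, then `R` is a quotient of `𝒪⟦X₁,…,X_r⟧`.  The `𝒪`-algebra structure on `k[ε]` is any
instance whose `algebraMap` is `a ↦ inl (residue a)`. -/
theorem s56pz_of_card
    (halg : ∀ a : 𝒪, algebraMap 𝒪 (DualNumber (ResidueField 𝒪)) a =
      TrivSqZeroExt.inl (residue 𝒪 a))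
    (hres : Function.Surjective (residue R ∘ algebraMap 𝒪 R)) (r : ℕ)
    (hcard : Nat.card (R →ₐ[𝒪] DualNumber (ResidueField 𝒪)) ≤ Nat.card (ResidueField 𝒪) ^ r) :
    ∃ γ : MvPowerSeries (Fin r) 𝒪 →ₐ[𝒪] R, Function.Surjective γ := by
  obtain ⟨x, hx, hgen⟩ := s56pz_exists_gens hres r (s56pz_finrank_le halg hres r hcard)
  exact ⟨s56pz_eval x hx, s56pz_surjective hres x hx hgen⟩

end Final

end Fermat.Agent.S56
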